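import Fermat.Agent.LL.Residual.ModularLevel

/-!
# Hecke systems attached to a modular Frey representation

The forms of `ModularLevel` for `FreyPackage.ModularRepOfLevel`, which allows any integral model.
-/

set_option autoImplicit false
set_option linter.style.haveILetI false

noncomputable section

open Polynomial WeierstrassCurve CuspForm ModularFormClass CongruenceSubgroup

namespace Fermat.Agent.LL

local notation "Γℚ" => (AlgebraicClosure ℚ ≃ₐ[ℚ] AlgebraicClosure ℚ)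

open CondLevel (Tors rhoTors)

theorem freyCurve_Δ_ne_zero (P : FreyPackage) : P.freyCurve.Δ ≠ 0 := by
  rw [← ECLocal.freyCurveInt_map, WeierstrassCurve.map_Δ, eq_intCast, Int.cast_ne_zero]
  exact ECLocal.freyCurveInt_Δ_ne_zero P

theorem freyCurveInt_isIntegralModelOf (P : FreyPackage) :
    P.freyCurveInt.IsIntegralModelOf P.freyCurve :=
  ⟨1, by rw [one_smul, ECLocal.freyCurveInt_map]⟩

/-- A modular Frey representation is residually modular for the Frey model. -/
theorem isResiduallyModularOfLevel_of_frey (h29 : CondLevel.ResidualAttachment) (P : FreyPackage)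
    {M : ℕ} (hM : M ≠ 0) (hmod : P.ModularRepOfLevel M) :
    P.freyCurveInt.IsResiduallyModularOfLevel P.p M := by
  haveI : Fact P.p.Prime := ⟨P.pp⟩
  obtain ⟨f, W', 𝔪, hf, hW', h𝔪, hp𝔪, hcong⟩ := hmod
  have hE := freyCurve_Δ_ne_zero P
  have hΔ' := delta_ne_zero_of_integralModel hE hW'
  have hΔ := ECLocal.freyCurveInt_Δ_ne_zero P
  obtain ⟨ψ, htr, -⟩ := exists_congr_trace_of_congr h29 W' hΔ' P.p hM hf 𝔪 hp𝔪 ∅
    fun ℓ hℓ hg hM hp _ => hcong ℓ hℓ hg hM hp
  refine ⟨f, 𝔪, hf, h𝔪, hp𝔪, fun ℓ hℓ hgood hℓM hℓp => ?_⟩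
  obtain ⟨A, σ, hA, hσ⟩ := Galois.exists_place_isFrobeniusAt hℓ
  obtain ⟨a, ha, he⟩ := htr ℓ hℓ hℓM hℓp A hA σ hσ
  refine ⟨a, ha, ?_⟩
  rw [← Ideal.Quotient.eq, he,
    ← torsTrace_eq_of_integralModels _ hE (freyCurveInt_isIntegralModelOf P) hW' P.p σ,
    (CondLevel.frobenius_trace_det P.freyCurveInt hΔ hℓ hℓp hgood hA hσ).1, map_intCast,
    map_intCast]

/-- The residual Hecke character of a modular Frey representation. -/
theorem exists_heckeHom (h29 : CondLevel.ResidualAttachment) (P : FreyPackage) [Fact P.p.Prime]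
    {M : ℕ} [NeZero M] (hmod : P.ModularRepOfLevel M) {k : Type} [Field k] (ψ : ZMod P.p →+* k) :
    ∃ θ : CuspForm.heckeAlgebra M 2 (↑(insert P.p M.primeFactors) : Set ℕ) →+* k,
      ∀ (ℓ : ℕ) (hℓ : ℓ.Prime) (hℓM : ¬ ℓ ∣ M)
        (hℓS : ℓ ∉ (↑(insert P.p M.primeFactors) : Set ℕ)),
        ∀ A : ValuationSubring (AlgebraicClosure ℚ), A.LiesOverPrime ℓ →
          ∀ σ : Γℚ, A.IsFrobeniusAt σ ℓ →
            θ (CuspForm.heckeAlgebra.T hℓ hℓM hℓS) =
              ψ (LinearMap.trace (ZMod P.p) _ (rhoTors P.freyCurveInt P.p σ)) :=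
  exists_heckeHom_of_level h29 P.freyCurveInt (ECLocal.freyCurveInt_Δ_ne_zero P) P.p
    (isResiduallyModularOfLevel_of_frey h29 P (NeZero.ne M) hmod) ψ

end Fermat.Agent.LL
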