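import Fermat.Agent.CondLevel.Compare
import Fermat.Agent.TateE.Basic
import Fermat.Agent.Tangent.Conditions
import Fermat.Agent.ECFormal.Main

/-!
# `E[p]` over a finite field of characteristic `p`

`curveRhoBar W p hΔ ψ` is the base change of `E[p]` along `ψ : ZMod p →+* k`, with the properties
used for the lifting problems.
-/

set_option autoImplicit false

noncomputable section

open Polynomial WeierstrassCurve
open scoped TensorProduct WeierstrassCurve.Affine

namespace Fermat.Agent.LL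

local notation "Γℚ" => (AlgebraicClosure ℚ ≃ₐ[ℚ] AlgebraicClosure ℚ)

open CondLevel (Tors rhoTors)

theorem castHom_eq {p : ℕ} {k : Type} [CommRing k] [CharP k p] (ψ : ZMod p →+* k) :
    ZMod.castHom (dvd_refl p) k = ψ := Subsingleton.elim _ _

variable (W : WeierstrassCurve ℤ) (p : ℕ) [Fact p.Prime] (hΔ : W.Δ ≠ 0)

/-- `E[p]` as a residual representation over `𝔽_p`. -/
def torsRep : ResidualGaloisRep (ZMod p) :=
  (W.map (Int.castRingHom ℚ)).residualGaloisRepOf p
    (ECTorsion.natCard_torsionBy_qbar_of_int W hΔ (Fact.out : p.Prime).ne_zero)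
    (CondLevel.rhoTors_finiteLevel W hΔ (Fact.out : p.Prime).ne_zero)

variable {k : Type} [Field k] (ψ : ZMod p →+* k)

/-- `E[p] ⊗ k`. -/
def curveRhoBar : ResidualGaloisRep k := (torsRep W p hΔ).baseChangeAlong ψ

theorem curveRhoBar_trace (σ : Γℚ) :
    LinearMap.trace k _ ((curveRhoBar W p hΔ ψ).ρ σ) =
      ψ (LinearMap.trace (ZMod p) (Tors W p) (rhoTors W p σ)) := by
  let : Algebra (ZMod p) k := ψ.toAlgebra
  have := CondLevel.moduleFinite_tors W hΔ p
  exact LinearMap.trace_baseChange (rhoTors W p σ) k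

theorem curveRhoBar_det (σ : Γℚ) :
    LinearMap.det ((curveRhoBar W p hΔ ψ).ρ σ) = ψ (LinearMap.det (rhoTors W p σ)) := by
  let : Algebra (ZMod p) k := ψ.toAlgebra
  have := CondLevel.moduleFinite_tors W hΔ p
  exact LinearMap.det_baseChange (A := k) (rhoTors W p σ)

theorem curveRhoBar_charpoly_eq (σ : Γℚ) :
    LinearMap.charpoly ((curveRhoBar W p hΔ ψ).ρ σ) =
      X ^ 2 - C (ψ (LinearMap.trace (ZMod p) (Tors W p) (rhoTors W p σ))) * X +
        C (ψ (LinearMap.det (rhoTors W p σ))) := by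
  rw [CondLevel.charpoly_eq_of_finrank_two (curveRhoBar W p hΔ ψ).finrank_eq,
    curveRhoBar_trace, curveRhoBar_det]

theorem curveRhoBar_absIrr (hp2 : p ≠ 2) (hirr : W.ModRepIsIrreducible p) :
    (curveRhoBar W p hΔ ψ).IsAbsolutelyIrreducible := by
  have : CharP k p := (RingHom.charP_iff ψ ψ.injective p).mp (ZMod.charP p)
  refine (CondLevel.residual_isAbsolutelyIrreducible W hΔ p hp2 hirr _ fun σ => ?_).1
  rw [castHom_eq ψ]
  exact ⟨curveRhoBar_trace W p hΔ ψ σ, curveRhoBar_det W p hΔ ψ σ⟩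

theorem curveRhoBar_apply_eq_smul_one_iff (c : ZMod p) (σ : Γℚ) :
    (curveRhoBar W p hΔ ψ).ρ σ = ψ c • 1 ↔ rhoTors W p σ = c • 1 := by
  let : Algebra (ZMod p) k := ψ.toAlgebra
  have := CondLevel.moduleFinite_tors W hΔ p
  change (rhoTors W p σ).baseChange k = algebraMap (ZMod p) k c • 1 ↔ _
  constructor
  · intro h
    refine LinearMap.ext fun x => ?_
    have hx := LinearMap.congr_fun h ((1 : k) ⊗ₜ[ZMod p] x)
    rw [LinearMap.baseChange_tmul, LinearMap.smul_apply, Module.End.one_apply, algebraMap_smul,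
      ← TensorProduct.tmul_smul] at hx
    exact Module.FaithfullyFlat.tensorProduct_mk_injective (A := ZMod p) (B := k) (Tors W p) hx
  · intro h
    rw [h, LinearMap.baseChange_smul, LinearMap.baseChange_one, algebraMap_smul]

theorem curveRhoBar_apply_eq_one_iff (σ : Γℚ) :
    (curveRhoBar W p hΔ ψ).ρ σ = 1 ↔ ∀ x : Tors W p, σ • x = x := by
  have := curveRhoBar_apply_eq_smul_one_iff W p hΔ ψ 1 σ
  rw [map_one, one_smul, one_smul] at this
  rw [this]
  exact ⟨fun h x => LinearMap.congr_fun h x, fun h => LinearMap.ext h⟩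

theorem curveRhoBar_isUnramifiedAt_iff (q : ℕ) :
    (curveRhoBar W p hΔ ψ).IsUnramifiedAt q ↔
      WeierstrassCurve.Affine.Point.GaloisRepUnramifiedAt (K := AlgebraicClosure ℚ) ℚ
        (W.map (Int.castRingHom ℚ)) p q :=
  ⟨fun h A hA σ hσ => (curveRhoBar_apply_eq_one_iff W p hΔ ψ σ).mp (h A hA σ hσ),
    fun h A hA σ hσ => (curveRhoBar_apply_eq_one_iff W p hΔ ψ σ).mpr (h A hA σ hσ)⟩

theorem curveRhoBar_detCyc :
    (GaloisRepAdic.ofResidualGaloisRep (curveRhoBar W p hΔ ψ)).DetIsCyclotomic p := by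
  have : CharP k p := (RingHom.charP_iff ψ ψ.injective p).mp (ZMod.charP p)
  refine ⟨by rw [CharP.cast_eq_zero k p]; exact zero_mem _, fun n σ a ha => ?_⟩
  rcases Nat.eq_zero_or_pos n with rfl | hn
  · rw [pow_zero, Nat.cast_one, Ideal.span_singleton_one]
    exact Submodule.mem_top
  have hz : σ (CondLevel.zetaN p) = CondLevel.zetaN p ^ a := ha _ (by
    obtain ⟨m, rfl⟩ := Nat.exists_eq_succ_of_ne_zero hn.ne'
    rw [pow_succ', pow_mul, (CondLevel.zetaN_spec p).pow_eq_one, one_pow])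
  have h : LinearMap.det ((curveRhoBar W p hΔ ψ).ρ σ) = (a : k) := by
    rw [curveRhoBar_det, CondLevel.det_rhoTors W hΔ p, CondLevel.cycChar_eq_natCast p hz,
      map_natCast]
  change LinearMap.det ((curveRhoBar W p hΔ ψ).ρ σ) - (a : k) ∈ _
  rw [h, sub_self]
  exact zero_mem _

theorem curveRhoBar_unipotent {q : ℕ} (hq : q.Prime) (hqp : q ≠ p)
    (hss : (q : ℤ) ∣ W.Δ → ¬ (q : ℤ) ∣ W.c₄) :
    (GaloisRepAdic.ofResidualGaloisRep (curveRhoBar W p hΔ ψ)).IsUnipotentOnInertiaAt q := by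
  intro A hA σ hσ
  have := CondLevel.moduleFinite_tors W hΔ p
  have hqn : ¬ q ∣ p := fun hd => hqp ((Nat.prime_dvd_prime_iff_eq hq Fact.out).mp hd)
  have hu := CondLevel.inertia_unipotent W hΔ hq hss hqn hA hσ
  have hnil : IsNilpotent (rhoTors W p σ - 1) := by
    refine ⟨2, ?_⟩
    rw [sq, sub_mul, mul_sub, one_mul, mul_one, ← sq, hu]
    module
  have h0 := hnil.charpoly_eq_X_pow_finrank
  rw [CondLevel.finrank_tors W hΔ p] at h0
  obtain ⟨t1, d1⟩ := CondLevel.trace_det_of_charpoly (CondLevel.finrank_tors W hΔ p) _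
    (t := (0 : ZMod p)) (d := 0) (by rw [h0]; simp)
  let b := Module.finBasisOfFinrankEq (ZMod p) (Tors W p) (CondLevel.finrank_tors W hΔ p)
  rw [LinearMap.trace_eq_matrix_trace (ZMod p) b, map_sub, LinearMap.toMatrix_one,
    Matrix.trace_sub, Matrix.trace_one, Fintype.card_fin, Nat.cast_ofNat, sub_eq_zero] at t1
  rw [← LinearMap.det_toMatrix b, map_sub, LinearMap.toMatrix_one, Matrix.det_fin_two] at d1
  simp only [Matrix.sub_apply, Matrix.one_apply_eq,
    Matrix.one_apply_ne (show (0 : Fin 2) ≠ 1 by decide),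
    Matrix.one_apply_ne (show (1 : Fin 2) ≠ 0 by decide), sub_zero] at d1
  have hdet : LinearMap.det (rhoTors W p σ) = 1 := by
    rw [← LinearMap.det_toMatrix b, Matrix.det_fin_two]
    rw [Matrix.trace_fin_two] at t1
    linear_combination d1 + t1
  change LinearMap.charpoly ((curveRhoBar W p hΔ ψ).ρ σ) = _
  rw [curveRhoBar_charpoly_eq, LinearMap.trace_eq_matrix_trace (ZMod p) b, t1, hdet, map_one,
    map_ofNat, map_one, map_ofNat]
  ring

theorem curveRhoBar_isFlatAt [Finite k]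
    (h : FFG.HasFlatModel (GaloisRep.ratLocalizedAt p) ℚ (AlgebraicClosure ℚ)
      (M := Tors W p) (fun σ P => σ • P)) :
    (GaloisRepAdic.ofResidualGaloisRep (curveRhoBar W p hΔ ψ)).IsFlatAt p := by
  have h0 : (GaloisRepAdic.ofResidualGaloisRep (torsRep W p hΔ)).IsFlatAt p := by
    rw [FFG.isFlatAt_iff]
    have := CondLevel.moduleFinite_tors W hΔ p
    refine ⟨Finite.of_surjective _ IsLocalRing.residue_surjective, fun I _ => ?_⟩
    let g : Tors W p →+ ((GaloisRepAdic.ofResidualGaloisRep (torsRep W p hΔ)).V ⧸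
        (I • (⊤ : Submodule (ZMod p) (GaloisRepAdic.ofResidualGaloisRep (torsRep W p hΔ)).V))) :=
      (Submodule.mkQ _).toAddMonoidHom
    exact FFG.HasFlatModelAt.of_surjective h g (Submodule.mkQ_surjective _) fun σ x => rfl
  have hloc : IsLocalHom ψ := ⟨fun a ha => isUnit_iff_ne_zero.mpr fun e => ha.ne_zero (by
    rw [e, map_zero])⟩
  have hres : Finite (IsLocalRing.ResidueField k) :=
    Finite.of_surjective _ IsLocalRing.residue_surjective
  exact TateE.isFlatAt_baseChangeAlong_of_finite ψ hloc hres h0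

end Fermat.Agent.LL
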