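import Fermat.Agent.LL.Residual.Models
import Fermat.Agent.LL.Residual.CurveRep
import Fermat.Agent.CondLevel.Inputs
import Fermat.Agent.ECLocal.Frey
import Fermat.Agent.Eigen.Unconditional
import Fermat.Agent.R59.Final

/-!
# Residual modularity of a model at a level: traces, ramification and Hecke characters

* `exists_congr_trace_of_congr`: a form congruent to `W` modulo `𝔪` at almost all primes has all
  coefficients prime to `M p` congruent to the traces of Frobenius on `E[p]`, which is unramified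
  at these primes.
* `exists_eigenform_of_heckeHom`: a residual character of a Hecke algebra comes from an eigenform.
* `isResiduallyModularOfLevel_of_heckeHom`: a residual character of the Hecke algebra with the
  traces of `W` at almost all primes makes `W` residually modular at that level.
* `modUnramified_of_not_dvd`: `E[p]` is unramified outside `p` and a level of modularity.
-/

set_option autoImplicit false
set_option linter.style.haveILetI false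

noncomputable section

open Polynomial WeierstrassCurve CuspForm ModularFormClass CongruenceSubgroup
open scoped IsMulCommutative

namespace Fermat.Agent.LL

local notation "Γℚ" => (AlgebraicClosure ℚ ≃ₐ[ℚ] AlgebraicClosure ℚ)

open CondLevel (Tors rhoTors)

/-- A form congruent to `W` at the primes outside a finite set has all its coefficients prime to
`M p` congruent to traces of Frobenius on `E[p]`, and `E[p]` is unramified there. -/
theorem exists_congr_trace_of_congr (h29 : CondLevel.ResidualAttachment) (W : WeierstrassCurve ℤ)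
    (hΔ : W.Δ ≠ 0) (p : ℕ) [Fact p.Prime] {M : ℕ} (hM : M ≠ 0)
    {f : CuspForm (Gamma0 M) 2} (hf : f.IsNormalizedEigenform)
    (𝔪 : Ideal (integralClosure ℤ ℂ)) [𝔪.IsMaximal] (hp𝔪 : (p : integralClosure ℤ ℂ) ∈ 𝔪)
    (S₀ : Finset ℕ)
    (hcong : ∀ ℓ : ℕ, ℓ.Prime → W.IsGoodPrimeFor ℓ → ¬ ℓ ∣ M → ℓ ≠ p → ℓ ∉ S₀ →
      ∃ a : integralClosure ℤ ℂ, (a : ℂ) = qCoeff f ℓ ∧
        a - ((W.apOfModel ℓ : ℤ) : integralClosure ℤ ℂ) ∈ 𝔪) :
    ∃ ψ : ZMod p →+* integralClosure ℤ ℂ ⧸ 𝔪,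
      (∀ ℓ : ℕ, ℓ.Prime → ¬ ℓ ∣ M → ℓ ≠ p → ∀ A : ValuationSubring (AlgebraicClosure ℚ),
        A.LiesOverPrime ℓ → ∀ σ : Γℚ, A.IsFrobeniusAt σ ℓ →
          ∃ a : integralClosure ℤ ℂ, (a : ℂ) = qCoeff f ℓ ∧ Ideal.Quotient.mk 𝔪 a =
            ψ (LinearMap.trace (ZMod p) _ (rhoTors W p σ))) ∧
      (∀ q : ℕ, q.Prime → ¬ q ∣ M → q ≠ p → ∀ A : ValuationSubring (AlgebraicClosure ℚ),
        A.LiesOverPrime q → ∀ τ ∈ A.inertiaSubgroupIn ℚ, ∀ g : Γℚ,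
          LinearMap.trace (ZMod p) _ (rhoTors W p (τ * g)) =
            LinearMap.trace (ZMod p) _ (rhoTors W p g)) := by
  have hp : p.Prime := Fact.out
  let : Field (integralClosure ℤ ℂ ⧸ 𝔪) := Ideal.Quotient.field 𝔪
  haveI : CharP (integralClosure ℤ ℂ ⧸ 𝔪) p := Eigen.charP_quotient_maximal hp 𝔪 hp𝔪
  obtain ⟨ρ, hρ, hunr⟩ := h29 hf hp
    (Ideal.Quotient.mk 𝔪 : integralClosure ℤ ℂ →+* integralClosure ℤ ℂ ⧸ 𝔪)
  have hne : ∀ {r : ℕ}, r.Prime → r ≠ p → (r : integralClosure ℤ ℂ ⧸ 𝔪) ≠ 0 := fun hr hrp h0 =>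
    hrp ((Nat.prime_dvd_prime_iff_eq hp hr).mp ((CharP.cast_eq_zero_iff _ p _).mp h0)).symm
  set S := insert p (M.primeFactors ∪ W.Δ.natAbs.primeFactors ∪ S₀) with hS
  have hFrob : CondLevel.AtFrobeniusOutside S fun σ => ∀ ℓ : ℕ, ℓ.Prime → ℓ ∉ S →
      ∀ A : ValuationSubring (AlgebraicClosure ℚ), A.LiesOverPrime ℓ → A.IsFrobeniusAt σ ℓ →
        LinearMap.charpoly (ρ.ρ σ) =
          X ^ 2 - C (W.apOfModel ℓ : integralClosure ℤ ℂ ⧸ 𝔪) * X +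
            C (ℓ : integralClosure ℤ ℂ ⧸ 𝔪) := by
    intro _ _ _ _ _ σ _ ℓ hℓ hℓS A hA hσ
    rw [hS, Finset.mem_insert, Finset.mem_union, Finset.mem_union, not_or, not_or, not_or] at hℓS
    have hℓM : ¬ ℓ ∣ M := fun hd => hℓS.2.1.1 (Nat.mem_primeFactors.mpr ⟨hℓ, hd, hM⟩)
    have hgood : W.IsGoodPrimeFor ℓ := fun hd => hℓS.2.1.2
      (Nat.mem_primeFactors.mpr ⟨hℓ, Int.natCast_dvd.mp hd, Int.natAbs_ne_zero.mpr hΔ⟩)
    obtain ⟨a, ha, hcp⟩ := hρ ℓ hℓ hℓM (hne hℓ hℓS.1) A hA σ hσ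
    obtain ⟨a', ha', hcong'⟩ := hcong ℓ hℓ hgood hℓM hℓS.1 hℓS.2.2
    obtain rfl : a = a' := Subtype.ext (ha.trans ha'.symm)
    rw [hcp, show Ideal.Quotient.mk 𝔪 a =
      ((W.apOfModel ℓ : ℤ) : integralClosure ℤ ℂ ⧸ 𝔪) by
        rw [← map_intCast (Ideal.Quotient.mk 𝔪), Ideal.Quotient.eq]; exact hcong']
  set ψ := ZMod.castHom (dvd_refl p) (integralClosure ℤ ℂ ⧸ 𝔪)
  have htr : ∀ σ : Γℚ, LinearMap.trace _ ρ.V (ρ.ρ σ) =
      ψ (LinearMap.trace (ZMod p) _ (rhoTors W p σ)) := fun σ =>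
    (CondLevel.residual_trace_det_eq W hΔ p ρ S (Finset.mem_insert_self _ _)
      (fun ℓ hℓ hd => Finset.mem_insert_of_mem (Finset.mem_union_left _ (Finset.mem_union_right _
        (Nat.mem_primeFactors.mpr ⟨hℓ, Int.natCast_dvd.mp hd, Int.natAbs_ne_zero.mpr hΔ⟩))))
      hFrob σ).1
  refine ⟨ψ, fun ℓ hℓ hℓM hℓp A hA σ hσ => ?_, fun q hq hqM hqp A hA τ hτ g => ?_⟩
  · obtain ⟨a, ha, hcp⟩ := hρ ℓ hℓ hℓM (hne hℓ hℓp) A hA σ hσ
    exact ⟨a, ha, by rw [← htr σ, (CondLevel.trace_det_of_charpoly ρ.finrank_eq _ hcp).1]⟩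
  · refine ψ.injective ?_
    rw [← htr, ← htr, map_mul, hunr q hq (fun hd => (hq.dvd_mul.mp hd).elim hqM fun h =>
      hqp ((Nat.prime_dvd_prime_iff_eq hq hp).mp h)) A hA τ hτ, one_mul]

/-- A residual character with integral values on the generators is the reduction of an
eigenform. -/
theorem exists_eigenform_of_heckeHom {N : ℕ} [NeZero N] {S : Set ℕ} {p : ℕ} (hp : p.Prime)
    {k : Type} [Field k] [CharP k p] (θ : CuspForm.heckeAlgebra N 2 S →+* k) :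
    ∃ (g : CuspForm (Gamma0 N) 2) (_ : g.IsNormalizedEigenform)
      (𝔪 : Ideal (integralClosure ℤ ℂ)), 𝔪.IsMaximal ∧ (p : integralClosure ℤ ℂ) ∈ 𝔪 ∧
      ∀ (ℓ : ℕ) (hℓ : ℓ.Prime) (hℓN : ¬ ℓ ∣ N) (hℓS : ℓ ∉ S) (n : ℤ),
        θ (CuspForm.heckeAlgebra.T hℓ hℓN hℓS) = (n : k) →
          ∃ a : integralClosure ℤ ℂ, (a : ℂ) = qCoeff g ℓ ∧
            a - (n : integralClosure ℤ ℂ) ∈ 𝔪 := by
  haveI := MF.IntStruct.moduleFinite_heckeAlgebra N 2 (∅ : Set ℕ)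
  haveI := MF.IntStruct.moduleFinite_heckeAlgebra N 2 S
  have hint := MF.IntStruct.hasIntegralStructure N 2
  haveI := Eigen.moduleFree_heckeAlgebra hint S
  let T := ↥(CuspForm.heckeAlgebra N 2 S)
  haveI : (RingHom.ker θ).IsPrime := RingHom.ker_isPrime θ
  obtain ⟨Q, hQmin, hQle⟩ := Ideal.exists_minimalPrimes_le
    (bot_le : (⊥ : Ideal T) ≤ RingHom.ker θ)
  haveI : Q.IsPrime := hQmin.1.1
  haveI : CharZero (T ⧸ Q) := by
    refine charZero_of_inj_zero fun n hn => ?_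
    by_contra hn0
    rw [← map_natCast (Ideal.Quotient.mk Q), Ideal.Quotient.eq_zero_iff_mem] at hn
    refine Set.disjoint_left.mp (Ideal.disjoint_nonZeroDivisors_of_mem_minimalPrimes hQmin) hn ?_
    rw [SetLike.mem_coe, mem_nonZeroDivisors_iff_right]
    intro z hz
    rw [mul_comm, ← nsmul_eq_mul] at hz
    exact (smul_eq_zero.mp (show (n : ℤ) • z = 0 by rw [natCast_zsmul]; exact hz)).resolve_left
      (Int.natCast_ne_zero.mpr hn0)
  obtain ⟨g, hg, hker⟩ := Eigen.exists_eigenform_ker_eq hint (Ideal.Quotient.mk Q)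
  rw [Ideal.mk_ker] at hker
  let χ := Eigen.eigenCharInt hg S
  letI : Algebra T (integralClosure ℤ ℂ) := χ.toAlgebra
  haveI : IsScalarTower ℤ T (integralClosure ℤ ℂ) :=
    IsScalarTower.of_algebraMap_eq' (RingHom.ext_int _ _)
  haveI : Algebra.IsIntegral T (integralClosure ℤ ℂ) :=
    ⟨fun x => IsIntegral.tower_top (R := ℤ) (Algebra.IsIntegral.isIntegral x)⟩
  obtain ⟨𝔪, -, h𝔪, hcomap⟩ := Ideal.exists_ideal_over_prime_of_isIntegral (RingHom.ker θ)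
    (⊥ : Ideal (integralClosure ℤ ℂ)) (by
      rw [← RingHom.ker_eq_comap_bot]
      intro t ht
      refine hQle (hker ▸ ?_)
      rw [RingHom.mem_ker] at ht ⊢
      rw [← Eigen.coe_eigenCharInt hg S t]
      exact congrArg Subtype.val ht)
  have hmem : ∀ t : T, χ t ∈ 𝔪 ↔ θ t = 0 := fun t => by
    rw [← RingHom.mem_ker, ← hcomap, Ideal.mem_comap]
    rfl
  have hp𝔪 : (p : integralClosure ℤ ℂ) ∈ 𝔪 := by
    rw [← map_natCast χ, hmem, map_natCast, CharP.cast_eq_zero]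
  refine ⟨g, hg, 𝔪, ?_, hp𝔪, fun ℓ hℓ hℓN hℓS n hn => ⟨Eigen.intCoeff hg ℓ, rfl, ?_⟩⟩
  · have : (Ideal.comap (algebraMap ℤ (integralClosure ℤ ℂ)) 𝔪).IsMaximal := by
      have hle : Ideal.span {(p : ℤ)} ≤ Ideal.comap (algebraMap ℤ (integralClosure ℤ ℂ)) 𝔪 := by
        rw [Ideal.span_singleton_le_iff_mem, Ideal.mem_comap, map_natCast]
        exact hp𝔪
      have hmax : (Ideal.span {(p : ℤ)}).IsMaximal :=
        PrincipalIdealRing.isMaximal_of_irreducible (Nat.prime_iff_prime_int.mp hp).irreducible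
      rwa [← hmax.eq_of_le (Ideal.comap_ne_top _ h𝔪.ne_top) hle]
    exact Ideal.isMaximal_of_isIntegral_of_isMaximal_comap 𝔪 this
  · rw [← Eigen.eigenCharInt_T hg S hℓ hℓN hℓS, ← map_intCast χ, ← map_sub, hmem, map_sub, hn,
      map_intCast, sub_self]

/-- A form congruent to `W` at almost all primes makes `W` residually modular at its level. -/
theorem isResiduallyModularOfLevel_of_congr (h29 : CondLevel.ResidualAttachment)
    (W : WeierstrassCurve ℤ) (hΔ : W.Δ ≠ 0) (p : ℕ) [Fact p.Prime] {M : ℕ} (hM : M ≠ 0)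
    {f : CuspForm (Gamma0 M) 2} (hf : f.IsNormalizedEigenform)
    (𝔪 : Ideal (integralClosure ℤ ℂ)) [h𝔪 : 𝔪.IsMaximal] (hp𝔪 : (p : integralClosure ℤ ℂ) ∈ 𝔪)
    (S₀ : Finset ℕ)
    (hcong : ∀ ℓ : ℕ, ℓ.Prime → W.IsGoodPrimeFor ℓ → ¬ ℓ ∣ M → ℓ ≠ p → ℓ ∉ S₀ →
      ∃ a : integralClosure ℤ ℂ, (a : ℂ) = qCoeff f ℓ ∧
        a - ((W.apOfModel ℓ : ℤ) : integralClosure ℤ ℂ) ∈ 𝔪) :
    W.IsResiduallyModularOfLevel p M := by
  obtain ⟨ψ, htr, -⟩ := exists_congr_trace_of_congr h29 W hΔ p hM hf 𝔪 hp𝔪 S₀ hcong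
  refine ⟨f, 𝔪, hf, h𝔪, hp𝔪, fun ℓ hℓ hgood hℓM hℓp => ?_⟩
  obtain ⟨A, σ, hA, hσ⟩ := Galois.exists_place_isFrobeniusAt hℓ
  obtain ⟨a, ha, he⟩ := htr ℓ hℓ hℓM hℓp A hA σ hσ
  refine ⟨a, ha, ?_⟩
  rw [← Ideal.Quotient.eq, he, (CondLevel.frobenius_trace_det W hΔ hℓ hℓp hgood hA hσ).1,
    map_intCast, map_intCast]

/-- A residual character of the Hecke algebra of level `M` with the traces of `W` at almost all
primes makes `W` residually modular at level `M`. -/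
theorem isResiduallyModularOfLevel_of_heckeHom (h29 : CondLevel.ResidualAttachment)
    (W : WeierstrassCurve ℤ) (hΔ : W.Δ ≠ 0) (p : ℕ) [Fact p.Prime] {M : ℕ} [NeZero M] {S : Set ℕ}
    {k : Type} [Field k] [CharP k p] (θ : CuspForm.heckeAlgebra M 2 S →+* k) (S₀ : Finset ℕ)
    (hS : ∀ ℓ : ℕ, ℓ ∈ S → ℓ ∈ S₀)
    (hθ : ∀ (ℓ : ℕ) (hℓ : ℓ.Prime) (hℓM : ¬ ℓ ∣ M) (hℓS : ℓ ∉ S), ℓ ≠ p → ℓ ∉ S₀ →
      W.IsGoodPrimeFor ℓ →
        θ (CuspForm.heckeAlgebra.T hℓ hℓM hℓS) = ((W.apOfModel ℓ : ℤ) : k)) :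
    W.IsResiduallyModularOfLevel p M := by
  obtain ⟨g, hg, 𝔪, h𝔪, hp𝔪, hcong⟩ :=
    exists_eigenform_of_heckeHom (Fact.out : p.Prime) θ
  exact isResiduallyModularOfLevel_of_congr h29 W hΔ p (NeZero.ne M) hg 𝔪 hp𝔪 S₀
    fun ℓ hℓ hgood hℓM hℓp hℓS => hcong ℓ hℓ hℓM (fun h => hℓS (hS ℓ h)) _
      (hθ ℓ hℓ hℓM (fun h => hℓS (hS ℓ h)) hℓp hℓS hgood)

/-- The residual Hecke character at a level of residual modularity. -/
theorem exists_heckeHom_of_level (h29 : CondLevel.ResidualAttachment) (W : WeierstrassCurve ℤ)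
    (hΔ : W.Δ ≠ 0) (p : ℕ) [Fact p.Prime] {M : ℕ} [NeZero M]
    (hmod : W.IsResiduallyModularOfLevel p M) {k : Type} [Field k] (ψ : ZMod p →+* k) :
    ∃ θ : CuspForm.heckeAlgebra M 2 (↑(insert p M.primeFactors) : Set ℕ) →+* k,
      ∀ (ℓ : ℕ) (hℓ : ℓ.Prime) (hℓM : ¬ ℓ ∣ M)
        (hℓS : ℓ ∉ (↑(insert p M.primeFactors) : Set ℕ)),
        ∀ A : ValuationSubring (AlgebraicClosure ℚ), A.LiesOverPrime ℓ →
          ∀ σ : Γℚ, A.IsFrobeniusAt σ ℓ →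
            θ (CuspForm.heckeAlgebra.T hℓ hℓM hℓS) =
              ψ (LinearMap.trace (ZMod p) _ (rhoTors W p σ)) := by
  obtain ⟨f, 𝔪, hf, h𝔪, hp𝔪, hcong⟩ := hmod
  obtain ⟨φ, htr, -⟩ := exists_congr_trace_of_congr h29 W hΔ p (NeZero.ne M) hf 𝔪 hp𝔪 ∅
    fun ℓ hℓ hg hM hp _ => hcong ℓ hℓ hg hM hp
  haveI := MF.IntStruct.moduleFinite_heckeAlgebra M 2 (∅ : Set ℕ)
  set S : Set ℕ := ↑(insert p M.primeFactors) with hS
  let χ := (Ideal.Quotient.mk 𝔪).comp (Eigen.eigenCharInt hf S)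
  have hne : ∀ {ℓ : ℕ}, ℓ ∉ S → ℓ ≠ p := fun h e => h (e ▸ Finset.mem_insert_self _ _)
  have hval : ∀ t, ∃ a : ℤ, χ t = (a : integralClosure ℤ ℂ ⧸ 𝔪) := by
    refine R59.exists_int_eq_of_generators (fun q hq hd => ?_) χ fun ℓ hℓ hℓM hℓS => ?_
    · exact Finset.mem_insert_of_mem (Nat.mem_primeFactors.mpr ⟨hq, hd, NeZero.ne M⟩)
    · obtain ⟨A, σ, hA, hσ⟩ := Galois.exists_place_isFrobeniusAt hℓ
      obtain ⟨a, ha, e⟩ := htr ℓ hℓ hℓM (hne hℓS) A hA σ hσ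
      obtain ⟨n, hn⟩ := ZMod.intCast_surjective (LinearMap.trace (ZMod p) _ (rhoTors W p σ))
      refine ⟨n, ?_⟩
      rw [RingHom.comp_apply, Eigen.eigenCharInt_T, show Eigen.intCoeff hf ℓ = a from
        Subtype.ext ha.symm, e, ← hn, map_intCast]
  let : Field (integralClosure ℤ ℂ ⧸ 𝔪) := Ideal.Quotient.field 𝔪
  let e := RingEquiv.ofBijective φ.rangeRestrict
    ⟨fun x y h => φ.injective (congrArg Subtype.val h), φ.rangeRestrict_surjective⟩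
  let θ₀ := (e.symm : φ.range →+* ZMod p).comp
    (χ.codRestrict φ.range fun t => by
      obtain ⟨a, ha⟩ := hval t
      exact ⟨(a : ZMod p), by rw [map_intCast, ha]⟩)
  refine ⟨ψ.comp θ₀, fun ℓ hℓ hℓM hℓS A hA σ hσ => congrArg ψ ?_⟩
  apply φ.injective
  obtain ⟨a, ha, he⟩ := htr ℓ hℓ hℓM (hne hℓS) A hA σ hσ
  rw [← he, show a = Eigen.intCoeff hf ℓ from Subtype.ext ha, ← Eigen.eigenCharInt_T hf S hℓ hℓM hℓS]
  exact congrArg Subtype.val (e.apply_symm_apply _)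

/-- A semistable residual representation is unramified outside `p` and a level of modularity. -/
theorem modUnramified_of_not_dvd (h29 : CondLevel.ResidualAttachment) (W : WeierstrassCurve ℤ)
    (hΔ : W.Δ ≠ 0) (hss : W.IsSemistableModel) (p : ℕ) [Fact p.Prime]
    (hirr : W.ModRepIsIrreducible p) {M : ℕ} (hM : M ≠ 0)
    (hmod : W.IsResiduallyModularOfLevel p M) {q : ℕ} (hq : q.Prime) (hqp : q ≠ p)
    (hqM : ¬ q ∣ M) : R59.ModUnramified W p q := by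
  obtain ⟨f, 𝔪, hf, h𝔪, hp𝔪, hcong⟩ := hmod
  obtain ⟨ψ, -, hunr⟩ := exists_congr_trace_of_congr h29 W hΔ p hM hf 𝔪 hp𝔪 ∅
    fun ℓ hℓ hg hM hp _ => hcong ℓ hℓ hg hM hp
  intro A hA τ hτ
  show rhoTors W p τ = 1
  have := CondLevel.moduleFinite_tors W hΔ p
  refine eq_one_of_trace_mul_eq (CondLevel.finrank_tors _ hΔ p) (rhoTors W p)
    (fun U hU => hirr.2 U fun σ y hy => hU σ y hy) ?_ fun g => ?_
  · have hu := CondLevel.inertia_unipotent W hΔ hq (hss q hq)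
      (fun hd => hqp ((Nat.prime_dvd_prime_iff_eq hq Fact.out).mp hd)) hA hτ
    rw [sub_mul, mul_sub, one_mul, mul_one, ← sq, hu]
    module
  · rw [← map_mul]
    exact hunr q hq hqM hqp A hA τ hτ g

end Fermat.Agent.LL
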