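import Fermat.Agent.R59.Setup.Residual
import Fermat.Agent.Density.Qbar
import Mathlib.FieldTheory.IsAlgClosed.AlgebraicClosure
import Mathlib.LinearAlgebra.Eigenspace.Triangularizable

/-!
# An auxiliary prime at `p = 3`

`exists_aux_prime_three`: if `E[3]` is irreducible there are primes `ℓ ≡ 2 (mod 3)` of good
reduction outside any finite set with `a_ℓ` prime to `3`; so `(ℓ + 1)² ≢ a_ℓ²` modulo `3` and
`ℓ` is harmless in a level.
-/

set_option autoImplicit false

noncomputable section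

open Module Polynomial WeierstrassCurve
open Fermat.Agent.Galois (Qbar GalQ)

namespace Fermat.Agent.LL

open CondLevel (Tors rhoTors cycChar)

/-- An endomorphism of a plane of trace zero squares to minus its determinant. -/
theorem mul_self_of_trace_eq_zero {K V : Type*} [Field K] [AddCommGroup V] [Module K V]
    [Module.Finite K V] (hV : finrank K V = 2) (f : Module.End K V)
    (htr : LinearMap.trace K V f = 0) : f * f = -(LinearMap.det f) • 1 := by
  have h := LinearMap.aeval_self_charpoly f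
  rw [CondLevel.charpoly_eq_of_finrank_two hV, htr, map_zero, zero_mul, sub_zero, map_add, map_pow,
    aeval_X, aeval_C, Algebra.algebraMap_eq_smul_one, sq] at h
  rw [eq_neg_of_add_eq_zero_left h, neg_smul]

section Three

variable (W : WeierstrassCurve ℤ) (hΔ : W.Δ ≠ 0)

include hΔ in
/-- Some element of odd determinant has nonzero trace on `E[3]`. -/
theorem exists_det_neg_one_trace_ne_zero (hW : W.IsSemistableModel)
    (hirr : W.ModRepIsIrreducible 3) :
    ∃ σ : GalQ, LinearMap.det (rhoTors W 3 σ) = -1 ∧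
      LinearMap.trace (ZMod 3) (Tors W 3) (rhoTors W 3 σ) ≠ 0 := by
  by_contra hcon
  push Not at hcon
  let K := AlgebraicClosure (ZMod 3)
  have : CharP K 3 := charP_of_injective_algebraMap (algebraMap (ZMod 3) K).injective 3
  set R := R59.curveResidual W hΔ 3 K
  have : Module.Finite K R.V := Module.finite_of_finrank_eq_succ R.finrank_eq
  have : Nontrivial R.V := Module.nontrivial_of_finrank_eq_succ R.finrank_eq
  let χ : GalQ →* (ZMod 3)ˣ := (cycChar 3).toHomUnits
  have hχ : ∀ σ, σ ∈ χ.ker ↔ cycChar 3 σ = 1 := fun σ => by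
    rw [MonoidHom.mem_ker, Units.ext_iff, MonoidHom.coe_toHomUnits, Units.val_one]
  have hc : cycChar 3 complexConjugation = -1 :=
    CondLevel.cycChar_involution (by norm_num) complexConjugation_mul_self
      CondLevel.complexConjugation_ne_one
  have hne0 : ∀ σ, cycChar 3 σ ≠ 0 := R59.cycChar_ne_zero 3
  have hval : ∀ x : ZMod 3, x ≠ 0 → x = 1 ∨ x = -1 := by decide
  have hindex : χ.ker.index = 2 := by
    rw [Subgroup.index_eq_two_iff]
    refine ⟨complexConjugation, fun b => ?_⟩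
    rw [hχ, hχ, map_mul, hc]
    rcases hval _ (hne0 b) with h | h
    · exact Or.inr ⟨h, by rw [h]; decide⟩
    · exact Or.inl ⟨by rw [h]; decide, by rw [h]; decide⟩
  -- outside the kernel everything is an involution
  have hinv : ∀ σ : GalQ, σ ∉ χ.ker → R.ρ σ * R.ρ σ = 1 := by
    intro σ hσ
    have hd : LinearMap.det (rhoTors W 3 σ) = -1 := by
      rw [CondLevel.det_rhoTors W hΔ 3]
      exact (hval _ (hne0 σ)).resolve_left fun h => hσ ((hχ σ).mpr h)
    rw [mul_self_of_trace_eq_zero R.finrank_eq (R.ρ σ) (by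
        rw [R59.trace_curveResidual, hcon σ hd, map_zero]),
      R59.det_curveResidual, hd, map_neg, map_one, neg_neg, one_smul]
  -- so the kernel has commutative image
  have hc' : complexConjugation ∉ χ.ker := fun h => by
    rw [hχ, hc] at h
    exact absurd h (by decide)
  set c := R.ρ complexConjugation
  have hcg : ∀ g ∈ χ.ker, c * R.ρ g * c * R.ρ g = 1 := fun g hg => by
    have h := hinv (complexConjugation * g) fun h => hc' (by simpa using mul_mem h (inv_mem hg))
    rwa [map_mul, ← mul_assoc] at h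
  have hcomm : ∀ g ∈ χ.ker, ∀ g' ∈ χ.ker, R.ρ g * R.ρ g' = R.ρ g' * R.ρ g := by
    have hgi : ∀ g ∈ χ.ker, c * R.ρ g * c = R.ρ g⁻¹ := fun g hg => by
      rw [← mul_one (c * R.ρ g * c), ← map_one R.ρ, ← mul_inv_cancel g, map_mul, ← mul_assoc,
        hcg g hg, one_mul]
    intro g hg g' hg'
    have h1 := hgi _ (mul_mem (inv_mem hg') (inv_mem hg))
    rw [mul_inv_rev, inv_inv, inv_inv, map_mul, map_mul] at h1
    rw [← h1]
    calc c * (R.ρ g'⁻¹ * R.ρ g⁻¹) * c
        = (c * R.ρ g'⁻¹ * c) * (c * R.ρ g⁻¹ * c) := by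
          simp only [mul_assoc]
          rw [← mul_assoc c c, hinv _ hc', one_mul]
      _ = R.ρ g' * R.ρ g := by rw [hgi _ (inv_mem hg'), hgi _ (inv_mem hg), inv_inv, inv_inv]
  -- hence a stable line over an algebraically closed field
  have hkey : ∀ U : Submodule K R.V, (∀ g ∈ χ.ker, ∀ x ∈ U, R.ρ g x ∈ U) → U = ⊥ ∨ U = ⊤ :=
    fun U hU => R59.eq_bot_or_eq_top_of_index_two W hΔ R.ρ (Or.inl rfl) hW hirr R.finrank_eq
      (fun σ n => R59.curveResidual_smul_one_iff W hΔ 3 K σ n)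
      (fun σ => R59.trace_curveResidual W hΔ 3 K σ) (fun σ => R59.det_curveResidual W hΔ 3 K σ)
      χ.ker hindex U hU
  by_cases hsc : ∀ g ∈ χ.ker, ∃ a : K, R.ρ g = a • 1
  · obtain ⟨v, hv⟩ := exists_ne (0 : R.V)
    rcases hkey (K ∙ v) fun g hg x hx => by
        obtain ⟨a, ha⟩ := hsc g hg
        rw [ha, LinearMap.smul_apply, Module.End.one_apply]
        exact Submodule.smul_mem _ a hx with h | h
    · exact hv (Submodule.span_singleton_eq_bot.mp h)
    · have h1 := finrank_span_singleton (K := K) hv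
      rw [h, finrank_top, R.finrank_eq] at h1
      exact absurd h1 (by norm_num)
  · push Not at hsc
    obtain ⟨g₀, hg₀, hns⟩ := hsc
    obtain ⟨μ, hμ⟩ := Module.End.exists_eigenvalue (R.ρ g₀)
    rcases hkey ((R.ρ g₀).eigenspace μ) fun g hg x hx => by
        rw [Module.End.mem_eigenspace_iff] at hx ⊢
        rw [← Module.End.mul_apply, hcomm g₀ hg₀ g hg, Module.End.mul_apply, hx, map_smul] with h | h
    · exact hμ h
    · refine hns μ (LinearMap.ext fun x => ?_)
      have hx : x ∈ (R.ρ g₀).eigenspace μ := h ▸ Submodule.mem_top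
      rwa [Module.End.mem_eigenspace_iff] at hx

include hΔ in
/-- At `p = 3` there are primes `ℓ ≡ 2 (mod 3)` of good reduction outside any finite set with
`a_ℓ` prime to `3`. -/
theorem exists_aux_prime_three (hW : W.IsSemistableModel) (hirr : W.ModRepIsIrreducible 3)
    (S : Finset ℕ) :
    ∃ ℓ : ℕ, ℓ.Prime ∧ ℓ ∉ S ∧ ℓ % 3 = 2 ∧ W.IsGoodPrimeFor ℓ ∧ ¬ (3 : ℤ) ∣ W.apOfModel ℓ := by
  obtain ⟨σ, hd, ht⟩ := exists_det_neg_one_trace_ne_zero W hΔ hW hirr
  obtain ⟨L, hL, hLfix⟩ := CondLevel.rhoTors_finiteLevel W hΔ (n := 3) (by norm_num)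
  have := hL
  obtain ⟨ℓ, hℓ, hℓS, A, hA, φ, hφ, n, hn⟩ :=
    Density.exists_frobenius_pow_eq L σ (insert 3 (S ∪ W.Δ.natAbs.primeFactors))
  rw [Finset.mem_insert, Finset.mem_union, not_or, not_or] at hℓS
  have hgood : W.IsGoodPrimeFor ℓ := fun h => hℓS.2.2
    (Nat.mem_primeFactors.mpr ⟨hℓ, Int.natCast_dvd.mp h, Int.natAbs_ne_zero.mpr hΔ⟩)
  have he : rhoTors W 3 σ = rhoTors W 3 φ ^ n := by
    rw [← map_pow]
    exact (CondLevel.eq_of_finiteLevel hLfix hn).symm
  obtain ⟨htr, hdet⟩ := CondLevel.frobenius_trace_det W hΔ hℓ hℓS.1 hgood hA hφ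
  have := CondLevel.moduleFinite_tors W hΔ 3
  rw [he, map_pow] at hd
  have hℓ2 : (ℓ : ZMod 3) = -1 := by
    rw [← hdet]
    have h0 : LinearMap.det (rhoTors W 3 φ) ≠ 0 := fun h => by
      rw [CondLevel.det_rhoTors W hΔ 3] at h
      exact R59.cycChar_ne_zero 3 φ h
    have hval : ∀ x : ZMod 3, x ≠ 0 → x = 1 ∨ x = -1 := by decide
    refine (hval _ h0).resolve_left fun h => ?_
    rw [h, one_pow] at hd
    exact absurd hd (by decide)
  have hodd : Odd n := by
    rw [hdet, hℓ2] at hd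
    rcases n.even_or_odd with h | h
    · rw [h.neg_one_pow] at hd
      exact absurd hd (by decide)
    · exact h
  refine ⟨ℓ, hℓ, hℓS.2.1, ?_, hgood, fun h3 => ht ?_⟩
  · have h := congrArg ZMod.val hℓ2
    rw [ZMod.val_natCast] at h
    exact h.trans (by decide)
  · have htr0 : LinearMap.trace (ZMod 3) (Tors W 3) (rhoTors W 3 φ) = 0 := by
      rw [htr]
      exact (ZMod.intCast_zmod_eq_zero_iff_dvd _ _).mpr h3
    have hsq : rhoTors W 3 φ ^ 2 = 1 := by
      rw [sq, mul_self_of_trace_eq_zero (CondLevel.finrank_tors W hΔ 3) _ htr0, hdet, hℓ2, neg_neg,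
        one_smul]
    obtain ⟨m, rfl⟩ := hodd
    rw [he, pow_succ, pow_mul, hsq, one_pow, one_mul, htr0]

omit hΔ in
/-- A prime `ℓ ≡ 2 (mod 3)` with `a_ℓ` prime to `3` is harmless. -/
theorem harmless_of_two_mod_three {ℓ : ℕ} (hℓ : ℓ % 3 = 2) (ha : ¬ (3 : ℤ) ∣ W.apOfModel ℓ) :
    ¬ ℓ ≡ 1 [MOD 3] ∧ ((W.apOfModel ℓ : ZMod 3)) ^ 2 ≠ ((ℓ : ZMod 3) + 1) ^ 2 := by
  refine ⟨fun h => by rw [Nat.ModEq, hℓ] at h; exact absurd h (by decide), fun h => ?_⟩
  have h0 : (ℓ : ZMod 3) + 1 = 0 := by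
    rw [← ZMod.natCast_mod, hℓ]
    decide
  rw [h0, zero_pow two_ne_zero, pow_eq_zero_iff two_ne_zero] at h
  exact ha ((ZMod.intCast_zmod_eq_zero_iff_dvd _ _).mp h)

end Three

end Fermat.Agent.LL
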