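import Fermat.Agent.CondLevel.Torsion
import Fermat.Agent.R59.Defs
import Fermat.Agent.FFG.RatLocal

/-!
# Hypotheses on a level for the general setting

`LevelHyp W p M aux`: a level of residual modularity of a semistable curve with a hard prime, its
auxiliary harmless primes, and minimality at the hard primes.
-/

set_option autoImplicit false

noncomputable section

namespace Fermat.Agent.LL

local notation "Γℚ" => (AlgebraicClosure ℚ ≃ₐ[ℚ] AlgebraicClosure ℚ)

open CondLevel (Tors rhoTors)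

/-- The hypotheses on a level of a curve under which a setting exists. -/
structure LevelHyp (W : WeierstrassCurve ℤ) (p M : ℕ) (aux : Finset ℕ) : Prop where
  squarefree : Squarefree M
  modular : W.IsResiduallyModularOfLevel p M
  aux_subset : aux ⊆ M.primeFactors.erase p
  aux_unramified : ∀ l ∈ aux, R59.ModUnramified W p l
  aux_harmless : ∀ l ∈ aux, W.IsGoodPrimeFor l ∧ ¬ l ≡ 1 [MOD p] ∧
    ((W.apOfModel l : ZMod p)) ^ 2 ≠ ((l : ZMod p) + 1) ^ 2
  three : p = 3 → ∃ l, l ∣ M ∧ l % 3 = 2 ∧ l.Prime ∧ (l ∈ aux ∨ ¬ R59.ModUnramified W p l)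
  not_flat : p ∣ M → ¬ FFG.HasFlatModel (GaloisRep.ratLocalizedAt p) ℚ (AlgebraicClosure ℚ)
    (M := Tors W p) (fun σ P => σ • P)
  minimal : ∀ r ∈ M.primeFactors.erase p, R59.ModUnramified W p r → r ∉ aux →
    ¬ W.IsResiduallyModularOfLevel p (M / r)
  hard : ∀ r ∈ M.primeFactors.erase p, R59.ModUnramified W p r → r ∉ aux →
    r ≡ 1 [MOD p] ∧ ∀ A : ValuationSubring (AlgebraicClosure ℚ), A.LiesOverPrime r →
      ∀ σ : Γℚ, A.IsFrobeniusAt σ r →
        rhoTors W p σ = 1 ∨ rhoTors W p σ = (-1 : ZMod p) • 1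
  exists_hard : ∃ r ∈ M.primeFactors.erase p, R59.ModUnramified W p r ∧ r ∉ aux

end Fermat.Agent.LL
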