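import Fermat.Agent.LL.Residual.SettingData
import Fermat.Agent.R59.Setup.Base
import Fermat.Agent.Datum.Inputs
import Fermat.Agent.R59.TopRep.Residual

/-!
# The residual representation at a level prime to `p` is flat at `p`

`curveRhoBar_isFlatAt_of_level`: if `W` is residually modular of a level prime to `p`, `E[p] ⊗ k`
has a finite flat model at `p`, from the types of S29, S32 and S37.
-/

set_option autoImplicit false
set_option synthInstance.maxHeartbeats 400000
set_option maxHeartbeats 1000000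
set_option linter.style.haveILetI false

noncomputable section

open IsLocalRing Polynomial CuspForm
open scoped TensorProduct

namespace Fermat.Agent.LL

/-- Flatness of the reduction of a flat representation. -/
theorem isFlatAt_residual {T : Type} [CommRing T] [IsLocalRing T] {ρ : GaloisRepAdic T} {p : ℕ}
    (h : ρ.IsFlatAt p) : (GaloisRepAdic.ofResidualGaloisRep ρ.residual).IsFlatAt p := by
  have hloc : IsLocalHom (residue T) := IsLocalHom.of_surjective _ residue_surjective
  refine Tangent.isFlatAt_of_isEquiv ?_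
    (Tangent.isFlatAt_baseChangeAlong (residue T) hloc residue_surjective h)
  exact ⟨{ toLinearEquiv := LinearEquiv.refl _ _, map_apply := fun σ x => rfl }⟩

/-- Flatness descends along a bijection of fields. -/
theorem isFlatAt_of_baseChangeAlong_bijective {k k' : Type} [Field k] [Field k']
    (ρbar : ResidualGaloisRep k) (g : k →+* k') (hg : Function.Bijective g) {p : ℕ}
    (h : (GaloisRepAdic.ofResidualGaloisRep (ρbar.baseChangeAlong g)).IsFlatAt p) :
    (GaloisRepAdic.ofResidualGaloisRep ρbar).IsFlatAt p := by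
  let gi : k' →+* k := ((RingEquiv.ofBijective g hg).symm : _ ≃+* _)
  have hcomp : gi.comp g = RingHom.id _ :=
    RingHom.ext fun x => (RingEquiv.ofBijective g hg).symm_apply_apply x
  have hloc : ∀ {a b : Type} [Field a] [Field b] (f : a →+* b), IsLocalHom f := fun f =>
    ⟨fun x hx => isUnit_iff_ne_zero.mpr fun h0 => hx.ne_zero (by rw [h0, map_zero])⟩
  have h1 : ((GaloisRepAdic.ofResidualGaloisRep ρbar).baseChangeAlong g (hloc g)).IsFlatAt p :=
    Tangent.isFlatAt_of_isEquiv
      ⟨{ toLinearEquiv := LinearEquiv.refl _ _, map_apply := fun σ x => rfl }⟩ h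
  have h2 := Tangent.isFlatAt_baseChangeAlong gi (hloc gi) (RingEquiv.surjective _) h1
  have e2 := R59.baseChangeAlong_comp_isEquiv g (hloc g) gi (hloc gi) (hloc _)
    (GaloisRepAdic.ofResidualGaloisRep ρbar)
  obtain ⟨e3⟩ := R59.TopRep.baseChangeAlong_id_isEquiv hcomp ρbar
  exact Tangent.isFlatAt_of_isEquiv
    ⟨{ toLinearEquiv := e3.toLinearEquiv, map_apply := e3.map_apply }⟩
    (Tangent.isFlatAt_of_isEquiv e2 h2)

/-- A residual representation attached to a Hecke character of level prime to `p` is flat at `p`. -/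
theorem isFlatAt_of_heckeChar (hspec : R59.StmtSpec) (h32 : R59.Stmt32) {p : ℕ} [Fact p.Prime]
    (hp2 : p ≠ 2) {O : Type} [CommRing O] [IsDomain O] [IsDiscreteValuationRing O]
    [IsAdicComplete (maximalIdeal O) O] [Finite (ResidueField O)] [CharZero O]
    (hpO : (p : O) ∈ maximalIdeal O) {N : ℕ} [NeZero N] (hpN : ¬ p ∣ N) (S : Finset ℕ)
    (hpS : p ∈ S) (hNS : ∀ q : ℕ, q.Prime → q ∣ N → q ∈ S)
    (θ : heckeAlgebra N 2 (↑S : Set ℕ) →+* ResidueField O)
    (ρbar : ResidualGaloisRep (ResidueField O)) (habs : ρbar.IsAbsolutelyIrreducible)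
    (hbar : ∀ (ℓ : ℕ) (hℓ : ℓ.Prime) (hℓN : ¬ ℓ ∣ N) (hℓS : ℓ ∉ (↑S : Set ℕ)),
      ∀ A : ValuationSubring (AlgebraicClosure ℚ), A.LiesOverPrime ℓ →
        ∀ σ : AlgebraicClosure ℚ ≃ₐ[ℚ] AlgebraicClosure ℚ, A.IsFrobeniusAt σ ℓ →
          LinearMap.charpoly (ρbar.ρ σ) =
            X ^ 2 - C (θ (heckeAlgebra.T hℓ hℓN hℓS)) * X + C ((ℓ : ResidueField O))) :
    (GaloisRepAdic.ofResidualGaloisRep ρbar).IsFlatAt p := by
  have : Fact (HasIntegralStructure N 2) := ⟨MF.IntStruct.hasIntegralStructure N 2⟩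
  have := MF.IntStruct.moduleFinite_heckeAlgebra N 2 ∅
  obtain ⟨D⟩ := HK.exists_tateRep N p
  have hquad : GAL.TorsionQuadratic N p :=
    (GAL.torsion_properties_of_specializationExists N p (HK.Corr.heckeOperatorsCommuteBar N)
      (HK.Corr.smulCommClass_heckeModuleBar N)
      (hspec N p (HK.Corr.heckeOperatorsCommuteBar N))).1
  obtain ⟨H, -, hres⟩ := Datum.exists_heckeGaloisRepDatum_of_tateRep (S := (↑S : Set ℕ)) hp2 hpO
    (Finset.mem_coe.mpr hpS) S.finite_toSet D (HK.torsionFiniteLevel N p)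
    hquad θ ρbar habs ∅ fun ℓ hℓ hℓN hℓS _ => hbar ℓ hℓ hℓN hℓS
  have hflat := h32 Fact.out hp2 hpO hpN hpS hNS H
  refine isFlatAt_of_baseChangeAlong_bijective _ _ ⟨RingHom.injective _, fun y => ?_⟩
    (Tangent.isFlatAt_of_isEquiv (R59.ofResidualGaloisRep_isEquiv hres) (isFlatAt_residual hflat))
  obtain ⟨c, rfl⟩ := H.residue_surjective y
  exact ⟨residue O c, ResidueField.map_residue _ c⟩

/-- Residual modularity at a level prime to `p` makes `E[p] ⊗ k` flat at `p`. -/
theorem curveRhoBar_isFlatAt_of_level (h29 : CondLevel.ResidualAttachment) (hspec : R59.StmtSpec)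
    (h32 : R59.Stmt32) (W : WeierstrassCurve ℤ) (p : ℕ) [Fact p.Prime] (hΔ : W.Δ ≠ 0)
    (hp2 : p ≠ 2) (hirr : W.ModRepIsIrreducible p)
    {O : Type} [CommRing O] [IsDomain O] [IsDiscreteValuationRing O]
    [IsAdicComplete (maximalIdeal O) O] [Finite (ResidueField O)] [CharZero O]
    (hpO : (p : O) ∈ maximalIdeal O) (ψ : ZMod p →+* ResidueField O)
    {M : ℕ} [NeZero M] (hpM : ¬ p ∣ M) (hmod : W.IsResiduallyModularOfLevel p M) :
    (GaloisRepAdic.ofResidualGaloisRep (curveRhoBar W p hΔ ψ)).IsFlatAt p := by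
  obtain ⟨θ, hθ⟩ := exists_residual_theta W p hΔ ψ h29 hmod
  exact isFlatAt_of_heckeChar hspec h32 hp2 hpO hpM (insert p M.primeFactors)
    (Finset.mem_insert_self _ _)
    (fun q hq hqM => Finset.mem_insert_of_mem
      (Nat.mem_primeFactors.mpr ⟨hq, hqM, NeZero.ne M⟩)) θ _
    (curveRhoBar_absIrr W p hΔ ψ hp2 hirr) hθ

end Fermat.Agent.LL
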