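import Fermat.Agent.LL.Residual.CurveRep
import Fermat.Agent.TateE.Main
import Fermat.Agent.Deform.MatRep

/-!
# The residual representation of a semistable curve at `p`

* `curveRhoBar_isFlatAt_of_good`: good reduction gives a finite flat model.
* `curveRhoBar_isStrictOrdinaryAt`: multiplicative reduction gives strict ordinarity.
-/

set_option autoImplicit false

noncomputable section

open scoped TensorProduct
open WeierstrassCurve

namespace Fermat.Agent.LL

local notation "Γℚ" => (AlgebraicClosure ℚ ≃ₐ[ℚ] AlgebraicClosure ℚ)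

variable (W : WeierstrassCurve ℤ) (p : ℕ) [Fact p.Prime] (hΔ : W.Δ ≠ 0) {k : Type} [Field k]
  (ψ : ZMod p →+* k)

/-- Good reduction at `p`: the residual representation is flat. -/
theorem curveRhoBar_isFlatAt_of_good [Finite k] (hgood : ¬ (p : ℤ) ∣ W.Δ) :
    (GaloisRepAdic.ofResidualGaloisRep (curveRhoBar W p hΔ ψ)).IsFlatAt p := by
  have h := ECFormal.hasFlatModel_of_good W (Fact.out : p.Prime) hgood 1
  rw [pow_one] at h
  exact curveRhoBar_isFlatAt W p hΔ ψ h

/-- The Tate module reduced to `k` is `E[p] ⊗ k`. -/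
theorem tateRep_baseChange_isEquiv (hloc : IsLocalHom (ψ.comp PadicInt.toZMod)) :
    ((TateE.tateRep W p hΔ).baseChangeAlong (ψ.comp PadicInt.toZMod) hloc).IsEquiv
      (GaloisRepAdic.ofResidualGaloisRep (curveRhoBar W p hΔ ψ)) := by
  let _ : Algebra ℤ_[p] k := (ψ.comp PadicInt.toZMod).toAlgebra
  let _ : Algebra (ZMod p) k := ψ.toAlgebra
  let b := TateE.tateBasis (p := p) hΔ
  let t := TateE.torsBasis (p := p) hΔ
  refine Deform.isEquiv_of_toMatrix_eq (Algebra.TensorProduct.basis k b) (Algebra.TensorProduct.basis k t) fun σ => ?_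
  show LinearMap.toMatrix (Algebra.TensorProduct.basis k b) (Algebra.TensorProduct.basis k b)
      ((TateE.Tate.rep σ : Module.End ℤ_[p] (TateE.Tate p (TateE.EPoint W))).baseChange k) =
    LinearMap.toMatrix (Algebra.TensorProduct.basis k t)
      (Algebra.TensorProduct.basis k t)
      ((CondLevel.rhoTors W p σ : Module.End (ZMod p) (TateE.ETors W p)).baseChange k)
  rw [LinearMap.toMatrix_baseChange, LinearMap.toMatrix_baseChange]
  ext i j
  rw [Matrix.map_apply, Matrix.map_apply, LinearMap.toMatrix_apply, LinearMap.toMatrix_apply]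
  show ψ (PadicInt.toZMod (b.repr (TateE.Tate.rep σ (b j)) i)) =
    ψ (t.repr (CondLevel.rhoTors W p σ (t j)) i)
  congr 1
  have hrep : CondLevel.rhoTors W p σ (t j) =
      ∑ i, PadicInt.toZMod (b.repr (TateE.Tate.rep σ (b j)) i) • t i := by
    simp only [t, TateE.torsBasis_apply]
    rw [show CondLevel.rhoTors W p σ (TateE.proj₁ (b j)) = σ • TateE.proj₁ (b j) from
      WeierstrassCurve.Affine.Point.galoisRepModuleEnd_apply .., ← TateE.proj₁_rep]
    conv_lhs => rw [← b.sum_repr (TateE.Tate.rep σ (b j)), map_sum]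
    exact Finset.sum_congr rfl fun i _ => TateE.proj₁_smul _ _
  rw [hrep, Module.Basis.repr_sum_self]

/-- Multiplicative reduction at `p`: the residual representation is strictly ordinary. -/
theorem curveRhoBar_isStrictOrdinaryAt (hp2 : p ≠ 2) (hd : (p : ℤ) ∣ W.Δ)
    (hc : ¬ (p : ℤ) ∣ W.c₄) :
    (GaloisRepAdic.ofResidualGaloisRep (curveRhoBar W p hΔ ψ)).IsStrictOrdinaryAt p := by
  have hψ : IsLocalHom (ψ.comp PadicInt.toZMod) := ⟨fun x hx => by
    by_contra h
    have hx0 : x ∈ IsLocalRing.maximalIdeal ℤ_[p] := h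
    rw [← PadicInt.ker_toZMod, RingHom.mem_ker] at hx0
    rw [RingHom.comp_apply, hx0, map_zero] at hx
    exact not_isUnit_zero hx⟩
  exact Tangent.isStrictOrdinaryAt_of_isEquiv (tateRep_baseChange_isEquiv W p hΔ ψ hψ)
    (Tangent.isStrictOrdinaryAt_baseChangeAlong _ hψ
      (TateE.tateRep_isStrictOrdinaryAt hΔ hp2 hd hc))

open CondLevel (Tors) in
/-- A finite flat model of `E[p] ⊗ k` gives one of `E[p]`. -/
theorem hasFlatModel_of_curveRhoBar_isFlatAt [Finite k]
    (h : (GaloisRepAdic.ofResidualGaloisRep (curveRhoBar W p hΔ ψ)).IsFlatAt p) :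
    FFG.HasFlatModel (GaloisRep.ratLocalizedAt p) ℚ (AlgebraicClosure ℚ)
      (M := Tors W p) (fun σ P => σ • P) := by
  let : Algebra (ZMod p) k := ψ.toAlgebra
  have h0 := ((FFG.isFlatAt_iff _ p).mp h).2 ⊥
    (Finite.of_surjective _ Ideal.Quotient.mk_surjective)
  let f : Tors W p →+ ((GaloisRepAdic.ofResidualGaloisRep (curveRhoBar W p hΔ ψ)).V ⧸
      ((⊥ : Ideal k) • (⊤ : Submodule k
        (GaloisRepAdic.ofResidualGaloisRep (curveRhoBar W p hΔ ψ)).V))) :=
    (Submodule.mkQ _).toAddMonoidHom.comp ((TensorProduct.mk (ZMod p) k (Tors W p)) 1).toAddMonoidHom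
  refine h0.of_injective f ?_ fun σ x => ?_
  · intro x y hxy
    have := (Submodule.Quotient.eq _).mp hxy
    rw [Submodule.bot_smul, Submodule.mem_bot, sub_eq_zero] at this
    exact Module.FaithfullyFlat.tensorProduct_mk_injective (A := ZMod p) (B := k) (Tors W p) this
  · show Submodule.Quotient.mk _ = Submodule.mapQ _ _ _ _ (Submodule.Quotient.mk _)
    rw [Submodule.mapQ_apply]
    congr 1

end Fermat.Agent.LL
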