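import Fermat.Agent.CondLevel.MultFrob
import Fermat.Agent.ECLocal.Main
import Fermat.Agent.LL.Galois.Generator

/-!
# Ramification at a multiplicative prime

If `q ≠ p` is multiplicative and `p ∤ v_q(Δ)` then inertia at `q` moves some `p`-torsion point.
-/

set_option autoImplicit false

noncomputable section

open WeierstrassCurve WeierstrassCurve.Affine.Point
open scoped WeierstrassCurve.Affine

namespace Fermat.Agent.LL

local notation "Qb" => AlgebraicClosure ℚ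
local notation "Γℚ" => (AlgebraicClosure ℚ ≃ₐ[ℚ] AlgebraicClosure ℚ)

open Fermat.Agent.ECLocal (NonsingRed HasLabel TateForm MultAt IntegralAt vcMap vcX vcY)

/-- Some `p`-torsion point reduces to the node. -/
theorem exists_torsion_not_nonsingRed (W : WeierstrassCurve ℤ) (hΔ : W.Δ ≠ 0) {q p : ℕ}
    [Fact p.Prime] (hq : q.Prime) (hp2 : p ≠ 2) (hqp : q ≠ p) (hd : (q : ℤ) ∣ W.Δ)
    (hc : ¬ (q : ℤ) ∣ W.c₄) {A : ValuationSubring Qb} (hA : A.LiesOverPrime q) :
    ∃ P : CondLevel.Tors W p, ¬ NonsingRed A (P : ((W.map (Int.castRingHom ℚ))⁄Qb).Point) := by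
  classical
  have hp : p.Prime := Fact.out
  obtain ⟨d, hdv, hnear, -⟩ := CondLevel.exists_nodeData W hA hq hd hc
  have hroots := CondLevel.card_roots_away W hA hq hd hc hp hqp hp2 hnear
  set R := ((((W.map (Int.castRingHom ℚ))⁄Qb).preΨ' p).roots.toFinset.filter
    fun x => 1 ≤ A.valuation (x - d.x₀)).card
  have hoff := CondLevel.natCard_offNode (A := A) (d := d) (W := W) hp2 (R := R) le_rfl
  have hnone : 0 < CondLevel.nodeOrder p := by
    have hp3 : 3 * 3 ≤ p ^ 2 := by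
      rw [sq]; exact Nat.mul_le_mul (by have := hp.two_le; omega) (by have := hp.two_le; omega)
    have : p % 2 = 1 := Nat.odd_iff.mp (hp.odd_of_ne_two hp2)
    unfold CondLevel.nodeOrder
    omega
  obtain ⟨P, hP⟩ : ∃ P : CondLevel.Tors W p,
      ¬ d.OffNode A _ (P : ((W.map (Int.castRingHom ℚ))⁄Qb).Point) := by
    by_contra hall
    push Not at hall
    have htot : Nat.card {P : CondLevel.Tors W p //
        d.OffNode A _ (P : ((W.map (Int.castRingHom ℚ))⁄Qb).Point)} = p ^ 2 := by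
      rw [Nat.card_congr (Equiv.subtypeUnivEquiv hall)]
      exact ECTorsion.natCard_torsionBy_qbar_of_int W hΔ hp.ne_zero
    rw [htot] at hoff
    have hp3 : 9 ≤ p ^ 2 := by
      have : 3 * 3 ≤ p * p :=
        Nat.mul_le_mul (by have := hp.two_le; omega) (by have := hp.two_le; omega)
      rw [sq]; omega
    omega
  refine ⟨P, ?_⟩
  obtain ⟨P, hPt⟩ := P
  rcases P with _ | ⟨x, y, h⟩
  · exact absurd trivial hP
  have hX : A.valuation (x - d.x₀) < 1 := not_le.mp hP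
  have hV := ECLocal.integralAt_intModel W A
  set V := (W.map (Int.castRingHom ℚ))⁄Qb
  have hc4v := ECLocal.valuation_intCast_eq_one hq hc A hA
  have hx0 : d.x₀ ∈ A := by
    have hr : CondLevel.nodeApprox W ∈ A := by
      rw [← A.valuation_le_one_iff, CondLevel.nodeApprox, map_div₀, hc4v, div_one,
        A.valuation_le_one_iff]
      exact ECLocal.intCast_mem_val A _
    simpa using A.add_mem _ _ (ECLocal.mem_of_v_lt_one hnear) hr
  have hx : x ∈ A := by simpa using A.add_mem _ _ (ECLocal.mem_of_v_lt_one hX) hx0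
  have hy := ECLocal.y_mem_of_x_mem hV h.1 hx
  have hα : d.α₁ ∈ A := by
    refine ECLocal.mem_of_monic_quadratic (b := V.a₁) (c := -(3 * d.x₀ + V.a₂)) hV.a₁_mem
      (A.neg_mem _ (A.add_mem _ _ (A.mul_mem _ _ (ECLocal.ofNat_mem A 3) hx0) hV.a₂_mem)) ?_
    linear_combination d.α₁ * hdv.sum - hdv.prod
  obtain ⟨hu, -⟩ := hdv.uw_lt_one h.1 hX
  have hdy : A.valuation (y - d.y₀) < 1 := by
    rw [show y - d.y₀ = d.u x y + d.α₁ * (x - d.x₀) by simp only [CondLevel.NodeData.u]; ring]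
    exact A.valuation.map_add_lt hu (ECLocal.v_mul_lt_one' (ECLocal.v_le_one hα) hX)
  intro hns
  rw [ECLocal.nonsingRed_some_iff hx hy] at hns
  have hle := fun {z : Qb} (hz : z ∈ A) => ECLocal.v_le_one (A := A) hz
  rcases hns with h1 | h1
  · refine h1.not_lt ?_
    rw [show V.a₁ * y - (3 * x ^ 2 + 2 * V.a₂ * x + V.a₄) =
      V.a₁ * (y - d.y₀) - (3 * (x + d.x₀) + 2 * V.a₂) * (x - d.x₀) by
        linear_combination -hdv.crit_x]
    refine A.valuation.map_sub_lt (ECLocal.v_mul_lt_one' (hle hV.a₁_mem) hdy)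
      (ECLocal.v_mul_lt_one' (hle ?_) hX)
    exact A.add_mem _ _ (A.mul_mem _ _ (ECLocal.ofNat_mem A 3) (A.add_mem _ _ hx hx0))
      (A.mul_mem _ _ (ECLocal.ofNat_mem A 2) hV.a₂_mem)
  · refine h1.not_lt ?_
    rw [show 2 * y + V.a₁ * x + V.a₃ = 2 * (y - d.y₀) + V.a₁ * (x - d.x₀) by
      linear_combination hdv.crit_y]
    exact A.valuation.map_add_lt (ECLocal.v_mul_lt_one' (hle (ECLocal.ofNat_mem A 2)) hdy)
      (ECLocal.v_mul_lt_one' (hle hV.a₁_mem) hX)

/-- Multiplicative reduction at `q ≠ p` with `p ∤ v_q(Δ)`: inertia acts nontrivially on `E[p]`. -/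
theorem exists_inertia_smul_ne (W : WeierstrassCurve ℤ) (hΔ : W.Δ ≠ 0) {q p : ℕ} [Fact p.Prime]
    (hq : q.Prime) (hp2 : p ≠ 2) (hqp : q ≠ p) (hd : (q : ℤ) ∣ W.Δ) (hc : ¬ (q : ℤ) ∣ W.c₄)
    (hpv : ¬ p ∣ padicValInt q W.Δ) {A : ValuationSubring Qb} (hA : A.LiesOverPrime q) :
    ∃ σ ∈ A.inertiaSubgroupIn ℚ, ∃ x : CondLevel.Tors W p, σ • x ≠ x := by
  classical
  by_contra hfix
  push Not at hfix
  have hp : p.Prime := Fact.out
  have hV := ECLocal.multAt_intModel W hΔ hq hd hc A hA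
  obtain ⟨a, C, hI, hT, hva, ha6, heq⟩ := ECLocal.exists_equivariant_normalForm (S := ℚ) hV
  obtain ⟨P, hP⟩ := exists_torsion_not_nonsingRed W hΔ hq hp2 hqp hd hc hA
  rw [← hI.nonsingRed_iff hV.toIntegralAt] at hP
  obtain ⟨γ, hγ⟩ := hT.exists_label hP
  obtain ⟨Q, hQ⟩ : ∃ Q : CondLevel.Tors W p,
      HasLabel A γ (vcMap _ C (Q : ((W.map (Int.castRingHom ℚ))⁄Qb).Point)) := by
    rcases hγ with hγ | hγ
    · exact ⟨P, hγ⟩
    · exact ⟨-P, by rwa [Submodule.coe_neg, map_neg]⟩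
  obtain ⟨τ, hτ, α, hα, hmove⟩ := exists_inertia_moves hA hp hq
  have hτQ := congrArg Subtype.val (hfix τ hτ Q)
  have hQp := ECLocal.nsmul_coe_torsionBy Q
  obtain ⟨Q, hQt⟩ := Q
  rcases Q with _ | ⟨x, y, h⟩
  · exact hQ.elim
  change τ • (Affine.Point.some x y h) = Affine.Point.some x y h at hτQ
  rw [ECLocal.smul_some_eq] at hτQ
  injection hτQ with hτx hτy
  have hY : τ (vcY C x y) = vcY C x y := by
    rw [← (heq τ hτ x y).2, hτx, hτy]
  rw [ECLocal.vcMap_some] at hQ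
  obtain ⟨m, hm⟩ := hT.exists_pow_of_torsion hQ (n := p) (by
    rw [← ECLocal.vcMap_some _ C h, ← map_nsmul, hQp, _root_.map_zero])
  obtain ⟨hXs, hYs, hYv, hZs⟩ := hQ
  obtain ⟨-, hγ1, hγa, hγ0, -⟩ := hT.label_facts (ECLocal.vc_nonsingular _ C h).1 hYs hYv hZs
  rw [ha6, hva, ECLocal.intModel_Δ, ECLocal.valuation_intCast_eq_pow hq hΔ A hA] at hm hγa
  set ε := A.valuation (q : Qb) with hεdef
  set n := padicValInt q W.Δ
  have hεlt : ε < 1 := ECLocal.valuation_q_lt_one A hA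
  have hεpos : 0 < ε := ECLocal.v_pos (Nat.cast_ne_zero.mpr hq.ne_zero)
  -- `0 < m < p`
  have hm0 : m ≠ 0 := by
    rintro rfl
    rw [pow_zero] at hm
    exact hγ1.ne ((pow_eq_one_iff.mp hm).resolve_right hp.ne_zero)
  have hmp : 2 * m ≤ p := by
    have h1 : (ε ^ n) ^ p ≤ (ε ^ n) ^ (2 * m) := by
      calc (ε ^ n) ^ p ≤ (γ ^ 2) ^ p := pow_le_pow_left' hγa p
        _ = (γ ^ p) ^ 2 := by rw [← pow_mul, ← pow_mul, mul_comm]
        _ = (ε ^ n) ^ (2 * m) := by rw [hm, ← pow_mul _ m 2, mul_comm m 2]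
    have hn0 : n ≠ 0 := fun h0 => hpv (h0 ▸ dvd_zero p)
    exact (pow_le_pow_iff_right_of_lt_one₀ (pow_pos hεpos n) (pow_lt_one₀ zero_le hεlt hn0)).1 h1
  -- a `p`-th root of unity moved by `τ`
  have hα0 : α ≠ 0 := fun h0 => Nat.cast_ne_zero.mpr hq.ne_zero
    (show (q : Qb) = 0 by rw [← hα, h0, zero_pow hp.ne_zero])
  set ζ := τ α / α with hζdef
  have hζp : ζ ^ p = 1 := by
    rw [hζdef, div_pow, ← map_pow, hα, map_natCast, div_self]
    exact Nat.cast_ne_zero.mpr hq.ne_zero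
  have hζ1 : ζ ≠ 1 := fun h1 => hmove ((div_eq_one_iff_eq hα0).mp h1)
  set N := n * m
  have hαv : A.valuation (α ^ N) = γ := by
    refine (pow_left_inj₀ zero_le zero_le hp.ne_zero).1 ?_
    rw [hm, ← map_pow, ← pow_mul, mul_comm N p, pow_mul, hα, map_pow, ← pow_mul]
  have hαN : α ^ N ≠ 0 := pow_ne_zero _ hα0
  have hZ : vcY C x y / α ^ N ∈ A := by
    rw [← A.valuation_le_one_iff, map_div₀, hYv, hαv, div_self hγ0]
  have hlt := ECLocal.valuation_map_sub_lt_one hτ hZ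
  have hZv : A.valuation (vcY C x y / α ^ N) = 1 := by rw [map_div₀, hYv, hαv, div_self hγ0]
  have hζN : (ζ ^ N)⁻¹ - 1 ∈ A.nonunits := by
    rw [A.mem_nonunits_iff]
    have e : τ (vcY C x y / α ^ N) - vcY C x y / α ^ N =
        ((ζ ^ N)⁻¹ - 1) * (vcY C x y / α ^ N) := by
      rw [map_div₀, map_pow, hY, hζdef, div_pow, inv_div]
      have : (τ α) ^ N ≠ 0 := pow_ne_zero _ ((_root_.map_ne_zero τ).mpr hα0)
      field_simp
    rwa [e, map_mul, hZv, mul_one] at hlt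
  have hone : (ζ ^ N)⁻¹ = 1 := Galois.rootOfUnity_eq_of_sub_mem_nonunits hA hq
    (m := p) (fun hd => hqp ((Nat.prime_dvd_prime_iff_eq hq hp).mp hd))
    (by rw [inv_pow, ← pow_mul, mul_comm, pow_mul, hζp, one_pow, inv_one]) (one_pow p) hζN
  have hprim : orderOf ζ = p := orderOf_eq_prime hζp hζ1
  have : p ∣ N := hprim ▸ orderOf_dvd_of_pow_eq_one (inv_eq_one.mp hone)
  rcases hp.dvd_mul.mp this with hh | hh
  · exact hpv hh
  · exact absurd (Nat.le_of_dvd (Nat.pos_of_ne_zero hm0) hh) (by omega)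

end Fermat.Agent.LL
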