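import Fermat.Agent.Eigen.Completion
import Fermat.Agent.Eigen.Residue
import Fermat.Prelude.Def_FLTPrelim_ModularRep
import Mathlib.RingTheory.RootsOfUnity.CyclotomicUnits
import Mathlib.RingTheory.Polynomial.Cyclotomic.Eval

/-!
# A coefficient ring for the residual representation

A complete discrete valuation ring with finite residue field containing the roots of every
quadratic over `𝔽_p`, and roots of unity of a given `p`-power order.
-/

set_option autoImplicit false
set_option linter.style.haveILetI false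

noncomputable section

open IsLocalRing Polynomial

namespace Fermat.Agent.LL

/-- A field with an element of order `p² - 1` contains every element of the algebraic closure
fixed by `x ↦ x ^ (p²)`. -/
theorem mem_range_of_pow_sq_eq {p : ℕ} (hp : p.Prime) {k K : Type} [Field k] [Field K] (ι : k →+* K)
    {w : k} (hw : IsPrimitiveRoot w (p ^ 2 - 1)) {x : K} (hx : x ^ p ^ 2 = x) :
    ∃ y : k, ι y = x := by
  rcases eq_or_ne x 0 with rfl | hx0
  · exact ⟨0, map_zero ι⟩
  have h4 : 2 ^ 2 ≤ p ^ 2 := Nat.pow_le_pow_left hp.two_le 2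
  have hn : 0 < p ^ 2 - 1 := by omega
  have hx1 : x ^ (p ^ 2 - 1) = 1 := by
    refine mul_right_cancel₀ hx0 ?_
    rw [← pow_succ, Nat.sub_add_cancel (by omega), hx, one_mul]
  haveI : NeZero (p ^ 2 - 1) := ⟨hn.ne'⟩
  obtain ⟨i, -, hi⟩ := (hw.map_of_injective ι.injective).eq_pow_of_pow_eq_one hx1
  exact ⟨w ^ i, by rw [map_pow, hi]⟩

/-- A quadratic over `𝔽_p` splits in any field with an element of order `p² - 1`. -/
theorem exists_roots_quadratic {p : ℕ} [Fact p.Prime] {k : Type} [Field k] (ψ : ZMod p →+* k)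
    {w : k} (hw : IsPrimitiveRoot w (p ^ 2 - 1)) (t d : ZMod p) :
    ∃ a b : k, (X ^ 2 - C (ψ t) * X + C (ψ d) : k[X]) = (X - C a) * (X - C b) := by
  have hp : p.Prime := Fact.out
  let ι := algebraMap k (AlgebraicClosure k)
  set T := ι (ψ t)
  set D := ι (ψ d)
  haveI : CharP k p := (RingHom.charP_iff ψ ψ.injective p).mp (ZMod.charP p)
  haveI : CharP (AlgebraicClosure k) p := (RingHom.charP_iff ι ι.injective p).mp inferInstance
  obtain ⟨x, hx⟩ := IsAlgClosed.exists_root (X ^ 2 - C T * X + C D : (AlgebraicClosure k)[X])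
    (by rw [show (X ^ 2 - C T * X + C D : (AlgebraicClosure k)[X]).degree = 2 by compute_degree!]
        norm_num)
  simp only [IsRoot.def, eval_add, eval_sub, eval_pow, eval_X, eval_mul, eval_C] at hx
  set y := T - x with hy
  have hfrob : ∀ s : ZMod p, ι (ψ s) ^ p = ι (ψ s) := fun s => by
    rw [← map_pow, ← map_pow, ZMod.pow_card]
  have hperm : ∀ z : AlgebraicClosure k, (z = x ∨ z = y) → z ^ p = x ∨ z ^ p = y := by
    intro z hz
    have hz0 : z ^ 2 - T * z + D = 0 := by
      rcases hz with rfl | rfl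
      · exact hx
      · rw [hy]; linear_combination hx
    have h1 : (z ^ p) ^ 2 - T * z ^ p + D = 0 := by
      have := congrArg (frobenius (AlgebraicClosure k) p) hz0
      simp only [map_add, map_sub, map_mul, map_pow, map_zero, frobenius_def] at this
      rwa [hfrob t, hfrob d] at this
    have h2 : (z ^ p - x) * (z ^ p - y) = 0 := by rw [hy]; linear_combination h1 - hx
    rcases mul_eq_zero.mp h2 with h | h
    · exact Or.inl (sub_eq_zero.mp h)
    · exact Or.inr (sub_eq_zero.mp h)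
  have hinj : ∀ u v : AlgebraicClosure k, u ^ p = v ^ p → u = v := fun u v h =>
    (frobenius (AlgebraicClosure k) p).injective h
  have hx2 : x ^ p ^ 2 = x := by
    rw [sq p, pow_mul]
    rcases hperm x (Or.inl rfl) with h | h
    · rw [h, h]
    · rw [h]
      rcases hperm y (Or.inr rfl) with h' | h'
      · exact h'
      · rw [h', hinj x y (h.trans h'.symm)]
  obtain ⟨a, ha⟩ := mem_range_of_pow_sq_eq hp ι hw hx2
  refine ⟨a, ψ t - a, ?_⟩
  have hd : ψ d = a * (ψ t - a) := ι.injective (by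
    rw [map_mul, map_sub, ha]; linear_combination hx)
  rw [hd, map_mul, map_sub]
  ring

/-- A primitive root of unity of order prime to the residue characteristic stays primitive in the
residue field. -/
theorem isPrimitiveRoot_residue {O : Type} [CommRing O] [IsDomain O] [IsLocalRing O] {p n : ℕ}
    (hp : p.Prime) (hpO : (p : O) ∈ maximalIdeal O) (hn : ¬ p ∣ n) {w : O}
    (hw : IsPrimitiveRoot w n) : IsPrimitiveRoot (residue O w) n := by
  have hn0 : n ≠ 0 := fun h => hn (h ▸ dvd_zero p)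
  have hunit : IsUnit (n : O) := by
    by_contra hu
    have hnm : (n : O) ∈ maximalIdeal O := hu
    obtain ⟨u, v, huv⟩ := (Nat.isCoprime_iff_coprime.mpr
      ((Nat.Prime.coprime_iff_not_dvd hp).mpr hn) : IsCoprime (p : ℤ) n)
    have h1 : (1 : O) ∈ maximalIdeal O := by
      have := congrArg (fun z : ℤ => (z : O)) huv
      push_cast at this
      rw [← this]
      exact add_mem (Ideal.mul_mem_left _ _ hpO) (Ideal.mul_mem_left _ _ hnm)
    exact (maximalIdeal.isMaximal O).ne_top ((Ideal.eq_top_iff_one _).mpr h1)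
  refine (IsPrimitiveRoot.iff_def _ _).mpr ⟨by rw [← map_pow, hw.pow_eq_one, map_one], fun l hl => ?_⟩
  obtain ⟨m, rfl⟩ : ∃ m, n = m + 1 := ⟨n - 1, by omega⟩
  rcases Nat.eq_zero_or_pos (l % (m + 1)) with h0 | hpos
  · exact Nat.dvd_of_mod_eq_zero h0
  exfalso
  set i := l % (m + 1) with hi
  have hlt : i < m + 1 := Nat.mod_lt _ (Nat.succ_pos m)
  have hres : residue O w ^ i = 1 := by
    have h : residue O w ^ (m + 1) = 1 := by rw [← map_pow, hw.pow_eq_one, map_one]
    rw [hi, ← pow_mod_orderOf]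
    rw [← Nat.div_add_mod l (m + 1), pow_add, pow_mul, h, one_pow, one_mul] at hl
    rw [pow_mod_orderOf]; exact hl
  have hprod := IsPrimitiveRoot.prod_one_sub_pow_eq_order hw
  have hdvd : 1 - w ^ i ∣ ((m : O) + 1) := by
    rw [← hprod]
    exact Finset.dvd_prod_of_mem (fun j => 1 - w ^ (j + 1)) (Finset.mem_range.mpr
      (show i - 1 < m by omega)) |> fun h => by
        rwa [show i - 1 + 1 = i by omega] at h
  push_cast at hunit
  have : IsUnit (1 - w ^ i) := isUnit_of_dvd_unit hdvd hunit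
  exact (this.map (residue O)).ne_zero (by rw [map_sub, map_one, map_pow, hres, sub_self])

/-- Coefficient rings with large residue field and enough roots of unity. -/
theorem exists_coeff (p : ℕ) [Fact p.Prime] (n : ℕ) :
    ∃ (O : Type) (_ : CommRing O) (_ : IsDomain O) (_ : IsDiscreteValuationRing O)
      (_ : IsAdicComplete (maximalIdeal O) O) (_ : Finite (ResidueField O)) (_ : CharZero O)
      (_ : IsAddTorsionFree O),
      (p : O) ∈ maximalIdeal O ∧ (∃ ζ : O, IsPrimitiveRoot ζ (p ^ n)) ∧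
      ∃ w : ResidueField O, IsPrimitiveRoot w (p ^ 2 - 1) := by
  have hp : p.Prime := Fact.out
  haveI : NeZero (p ^ n) := ⟨pow_ne_zero _ hp.ne_zero⟩
  have h4 : 2 ^ 2 ≤ p ^ 2 := Nat.pow_le_pow_left hp.two_le 2
  have hn2 : 0 < p ^ 2 - 1 := by omega
  haveI : NeZero (p ^ 2 - 1) := ⟨hn2.ne'⟩
  obtain ⟨w₀, hw₀⟩ := HasEnoughRootsOfUnity.exists_primitiveRoot ℂ (p ^ 2 - 1)
  obtain ⟨z₀, hz₀⟩ := HasEnoughRootsOfUnity.exists_primitiveRoot ℂ (p ^ n)
  have hwi : IsIntegral ℤ w₀ := hw₀.isIntegral hn2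
  have hzi : IsIntegral ℤ z₀ := hz₀.isIntegral (Nat.pos_of_ne_zero (NeZero.ne _))
  let R : Subalgebra ℤ (integralClosure ℤ ℂ) :=
    Algebra.adjoin ℤ {(⟨w₀, hwi⟩ : integralClosure ℤ ℂ), ⟨z₀, hzi⟩}
  haveI : Module.Finite ℤ R := by
    refine Module.Finite.iff_fg.mpr (fg_adjoin_of_finite (Set.toFinite _) fun x _ => ?_)
    exact (isIntegral_algHom_iff (integralClosure ℤ ℂ).val Subtype.val_injective).mp x.2
  obtain ⟨𝔪, h𝔪, hp𝔪⟩ := FLTPrelim.exists_maximalIdeal_natCast_prime_mem hp
  let : Field (integralClosure ℤ ℂ ⧸ 𝔪) := Ideal.Quotient.field 𝔪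
  haveI := Eigen.charP_quotient_maximal hp 𝔪 hp𝔪
  obtain ⟨O, i1, i2, i3, i4, i5, i6, χ, -, hpO, hker, -⟩ :=
    Eigen.exists_completion_point (R.val.toRingHom) hp (Ideal.Quotient.mk 𝔪)
  have hinj : Function.Injective χ := by
    rw [RingHom.injective_iff_ker_eq_bot, hker, ← RingHom.injective_iff_ker_eq_bot]
    exact Subtype.val_injective
  have hcoe : Function.Injective fun x : R => ((x : integralClosure ℤ ℂ) : ℂ) :=
    Subtype.val_injective.comp Subtype.val_injective
  let f : R →+* ℂ := (integralClosure ℤ ℂ).val.toRingHom.comp R.val.toRingHom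
  let w : R := ⟨⟨w₀, hwi⟩, Algebra.subset_adjoin (Set.mem_insert _ _)⟩
  let z : R := ⟨⟨z₀, hzi⟩, Algebra.subset_adjoin (Set.mem_insert_of_mem _ rfl)⟩
  have hw : IsPrimitiveRoot w (p ^ 2 - 1) :=
    IsPrimitiveRoot.of_map_of_injective (f := f) hw₀ hcoe
  have hz : IsPrimitiveRoot z (p ^ n) := IsPrimitiveRoot.of_map_of_injective (f := f) hz₀ hcoe
  refine ⟨O, i1, i2, i3, i4, i5, i6, inferInstance, hpO, ⟨χ z, hz.map_of_injective hinj⟩,
    residue O (χ w), isPrimitiveRoot_residue hp hpO (fun hdvd => ?_) (hw.map_of_injective hinj)⟩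
  have h1 : p ∣ p ^ 2 - (p ^ 2 - 1) := Nat.dvd_sub (dvd_pow_self p two_ne_zero) hdvd
  rw [Nat.sub_sub_self (by omega)] at h1
  exact hp.not_dvd_one h1

end Fermat.Agent.LL
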