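import Fermat.Agent.LL.Galois.TameGen
import Fermat.Agent.LL.Residual.Coeff
import Fermat.Agent.LL.Residual.CurveRep
import Fermat.Agent.LL.Residual.ModularLevel
import Mathlib.NumberTheory.Padics.PadicVal.Basic

/-!
# The data of a setting for `E[p] ⊗ k`

* `exists_hard_data`: places, Frobenius elements, tame generators and signs at unramified primes
  where Frobenius acts on `E[p]` as `±1`.
* `exists_residual_theta`: the residual Hecke character at a level of modularity, through the
  Frobenius polynomials of `E[p] ⊗ k`.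
* `exists_T_ne_of_not_modular`: a character of lower level differs from it somewhere when `W` is
  not modular at the lower level.
* `exists_primitiveRoot_padicValNat`: the roots of unity at the hard primes.
-/

set_option autoImplicit false
set_option linter.style.haveILetI false

noncomputable section

open IsLocalRing Polynomial

namespace Fermat.Agent.LL

open CondLevel (Tors rhoTors)

local notation "Γℚ" => (AlgebraicClosure ℚ ≃ₐ[ℚ] AlgebraicClosure ℚ)

variable (W : WeierstrassCurve ℤ) (p : ℕ) [Fact p.Prime] (hΔ : W.Δ ≠ 0) {k : Type} [Field k]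
  (ψ : ZMod p →+* k)

/-- Places, Frobenius elements, tame generators and signs at primes where `E[p]` is unramified and
Frobenius acts as `±1`. -/
theorem exists_hard_data (H : Finset ℕ) (hH : ∀ r ∈ H, r.Prime ∧ r ≠ p)
    (hunr : ∀ r ∈ H, R59.ModUnramified W p r)
    (hsc : ∀ r ∈ H, ∀ A : ValuationSubring (AlgebraicClosure ℚ), A.LiesOverPrime r →
      ∀ σ : Γℚ, A.IsFrobeniusAt σ r →
        rhoTors W p σ = 1 ∨ rhoTors W p σ = (-1 : ZMod p) • 1) :
    ∃ (place : {r // r ∈ H} → ValuationSubring (AlgebraicClosure ℚ))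
      (frob tame : {r // r ∈ H} → Γℚ) (sign : {r // r ∈ H} → ℤˣ),
      (∀ i, (place i).LiesOverPrime i.1) ∧ (∀ i, (place i).IsFrobeniusAt (frob i) i.1) ∧
      (∀ i, IsTameGen p i.1 (place i) (frob i) (tame i)) ∧
      ∀ (r : {r // r ∈ H}) (A : ValuationSubring (AlgebraicClosure ℚ)), A.LiesOverPrime r.1 →
        ∀ σ : Γℚ, A.IsFrobeniusAt σ r.1 → (curveRhoBar W p hΔ ψ).ρ σ =
          ((sign r : ℤ) : k) • (1 : Module.End k (curveRhoBar W p hΔ ψ).V) := by
  classical
  choose place frob hplace hfrob using fun r : {r // r ∈ H} =>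
    Galois.exists_place_isFrobeniusAt (q := r.1) (hH r.1 r.2).1
  choose tame htame using fun r : {r // r ∈ H} =>
    exists_isTameGen (Fact.out : p.Prime) (hH r.1 r.2).1 (hH r.1 r.2).2 (hplace r) (hfrob r)
  let sign : {r // r ∈ H} → ℤˣ := fun r => if rhoTors W p (frob r) = 1 then 1 else -1
  have hsign : ∀ r, rhoTors W p (frob r) = (((sign r : ℤ) : ZMod p)) • 1 := by
    intro r
    by_cases h : rhoTors W p (frob r) = 1
    · simp only [sign, if_pos h, Units.val_one, Int.cast_one, one_smul, h]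
    · simp only [sign, if_neg h, Units.val_neg, Units.val_one, Int.cast_neg, Int.cast_one]
      exact (hsc r.1 r.2 _ (hplace r) _ (hfrob r)).resolve_left h
  refine ⟨place, frob, tame, sign, hplace, hfrob, htame, fun r A hA σ hσ => ?_⟩
  obtain ⟨g, hg⟩ := Galois.exists_smul_eq (hplace r) hA (hH r.1 r.2).1
  have hconj := Galois.isFrobeniusAt_conj (hfrob r) g
  rw [hg] at hconj
  have hI : rhoTors W p ((g * frob r * g⁻¹)⁻¹ * σ) = 1 := hunr r.1 r.2 A hA _
    (Galois.isFrobeniusAt_inv_mul_mem_inertia hconj hσ)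
  have e : rhoTors W p σ = ((sign r : ℤ) : ZMod p) • 1 := by
    calc rhoTors W p σ
        = rhoTors W p (g * frob r * g⁻¹) * rhoTors W p ((g * frob r * g⁻¹)⁻¹ * σ) := by
          rw [← map_mul, mul_inv_cancel_left]
      _ = rhoTors W p (g * frob r * g⁻¹) := by rw [hI, mul_one]
      _ = ((sign r : ℤ) : ZMod p) • 1 := by
          rw [map_mul, map_mul, hsign r, mul_smul_comm, mul_one, smul_mul_assoc, ← map_mul,
            mul_inv_cancel, map_one]
  rw [← map_intCast ψ]
  exact (curveRhoBar_apply_eq_smul_one_iff W p hΔ ψ _ σ).mpr e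

/-- The residual Hecke character at a level of modularity. -/
theorem exists_residual_theta (h29 : CondLevel.ResidualAttachment) {M : ℕ} [NeZero M]
    (hmod : W.IsResiduallyModularOfLevel p M) :
    ∃ θ : CuspForm.heckeAlgebra M 2 (↑(insert p M.primeFactors) : Set ℕ) →+* k,
      ∀ (l : ℕ) (hl : l.Prime) (hlM : ¬ l ∣ M)
        (hlS : l ∉ (↑(insert p M.primeFactors) : Set ℕ)),
        ∀ A : ValuationSubring (AlgebraicClosure ℚ), A.LiesOverPrime l →
          ∀ σ : Γℚ, A.IsFrobeniusAt σ l → LinearMap.charpoly ((curveRhoBar W p hΔ ψ).ρ σ) =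
            X ^ 2 - C (θ (CuspForm.heckeAlgebra.T hl hlM hlS)) * X + C ((l : k)) := by
  obtain ⟨θ, hθ⟩ := exists_heckeHom_of_level h29 W hΔ p hmod ψ
  refine ⟨θ, fun l hl hlM hlS A hA σ hσ => ?_⟩
  have hlp : l ≠ p := fun e => hlS (e ▸ Finset.mem_insert_self _ _)
  rw [curveRhoBar_charpoly_eq, hθ l hl hlM hlS A hA σ hσ, CondLevel.det_rhoTors W hΔ p,
    CondLevel.cycChar_frobenius p hl
      (fun hd => hlp ((Nat.prime_dvd_prime_iff_eq hl Fact.out).mp hd)) hA hσ, map_natCast]

/-- If `W` is not modular at level `M'`, every character of that level differs from the residual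
one at some Hecke operator. -/
theorem exists_T_ne_of_not_modular (h29 : CondLevel.ResidualAttachment) {M M' : ℕ} [NeZero M]
    [NeZero M']
    (θ : CuspForm.heckeAlgebra M 2 (↑(insert p M.primeFactors) : Set ℕ) →+* k)
    (hθ : ∀ (l : ℕ) (hl : l.Prime) (hlM : ¬ l ∣ M)
      (hlS : l ∉ (↑(insert p M.primeFactors) : Set ℕ)),
      ∀ A : ValuationSubring (AlgebraicClosure ℚ), A.LiesOverPrime l →
        ∀ σ : Γℚ, A.IsFrobeniusAt σ l → LinearMap.charpoly ((curveRhoBar W p hΔ ψ).ρ σ) =
          X ^ 2 - C (θ (CuspForm.heckeAlgebra.T hl hlM hlS)) * X + C ((l : k)))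
    (hno : ¬ W.IsResiduallyModularOfLevel p M')
    (θ' : CuspForm.heckeAlgebra M' 2 (↑(insert p M.primeFactors) : Set ℕ) →+* k) :
    ∃ (l : ℕ) (hl : l.Prime) (hlM' : ¬ l ∣ M') (hlM : ¬ l ∣ M)
      (hlS : l ∉ (↑(insert p M.primeFactors) : Set ℕ)),
      θ' (CuspForm.heckeAlgebra.T hl hlM' hlS) ≠ θ (CuspForm.heckeAlgebra.T hl hlM hlS) := by
  by_contra hall
  push Not at hall
  have : CharP k p := (RingHom.charP_iff ψ ψ.injective p).mp (ZMod.charP p)
  refine hno (isResiduallyModularOfLevel_of_heckeHom h29 W hΔ p θ' (insert p M.primeFactors)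
    (fun l h => h) fun l hl hlM' hlS hlp _ hgood => ?_)
  have hlM : ¬ l ∣ M := fun hd => hlS (Finset.mem_insert_of_mem
    (Nat.mem_primeFactors.mpr ⟨hl, hd, NeZero.ne M⟩))
  obtain ⟨A, σ, hA, hσ⟩ := Galois.exists_place_isFrobeniusAt hl
  rw [hall l hl hlM' hlM hlS]
  have h := hθ l hl hlM hlS A hA σ hσ
  rw [curveRhoBar_charpoly_eq] at h
  have h1 := congrArg (Polynomial.coeff · 1) h
  simp [Polynomial.coeff_X_pow, Polynomial.coeff_C] at h1
  rw [← h1, (CondLevel.frobenius_trace_det W hΔ hl hlp hgood hA hσ).1, map_intCast]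

/-- A primitive `p ^ M`-th root of unity gives the roots of unity at every prime dividing `M`. -/
theorem exists_primitiveRoot_padicValNat {O : Type} [CommRing O] {M r : ℕ} (hM : 0 < M)
    (hr : r ∣ M) {ζ : O} (hζ : IsPrimitiveRoot ζ (p ^ M)) :
    ∃ z : O, IsPrimitiveRoot z (p ^ padicValNat p (r - 1)) := by
  have hle : padicValNat p (r - 1) ≤ M :=
    (padicValNat_le_nat_log _).trans ((Nat.log_le_self _ _).trans
      ((Nat.sub_le r 1).trans (Nat.le_of_dvd hM hr)))
  exact ⟨_, hζ.pow (pow_pos (Fact.out : p.Prime).pos M) (a := p ^ (M - padicValNat p (r - 1)))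
    (by rw [← pow_add, Nat.sub_add_cancel hle])⟩

end Fermat.Agent.LL
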