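import Fermat.Agent.LL.Residual.CurveRep
import Fermat.Agent.R59.Setup.TW

/-!
# `E[p] ⊗ k` on subgroups of index two, `p` odd

`curveRhoBar_tw`: no proper stable subspace over any extension of `k`, from
`R59.eq_bot_or_eq_top_of_index_two_odd`.
-/

set_option autoImplicit false

noncomputable section

open scoped TensorProduct

namespace Fermat.Agent.LL

open CondLevel (Tors rhoTors)

local notation "Γℚ" => (AlgebraicClosure ℚ ≃ₐ[ℚ] AlgebraicClosure ℚ)

variable (W : WeierstrassCurve ℤ) (p : ℕ) [Fact p.Prime] (hΔ : W.Δ ≠ 0) {k : Type} [Field k]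
  (ψ : ZMod p →+* k)

/-- `E[p] ⊗ k` stays absolutely irreducible on subgroups of index two. -/
theorem curveRhoBar_tw (hp2 : p ≠ 2) (hW : W.IsSemistableModel)
    (hirr : W.ModRepIsIrreducible p) (K : Type) [Field K] [Algebra k K] (G : Subgroup Γℚ)
    (hG : G.index = 2) (V : Submodule K ((curveRhoBar W p hΔ ψ).baseChange K).V)
    (hV : ∀ σ ∈ G, ∀ x ∈ V, ((curveRhoBar W p hΔ ψ).baseChange K).ρ σ x ∈ V) : V = ⊥ ∨ V = ⊤ := by
  let : Algebra (ZMod p) k := ψ.toAlgebra
  have : CharP k p := (RingHom.charP_iff ψ ψ.injective p).mp (ZMod.charP p)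
  have : CharP K p := charP_of_injective_algebraMap (algebraMap k K).injective p
  have hcomp : (algebraMap k K).comp ψ = ZMod.castHom (dvd_refl p) K := Subsingleton.elim _ _
  refine R59.eq_bot_or_eq_top_of_index_two_odd W hΔ ((curveRhoBar W p hΔ ψ).baseChange K).ρ hp2 hW hirr
    ((curveRhoBar W p hΔ ψ).baseChange K).finrank_eq (fun σ c => ?_) (fun σ => ?_) (fun σ => ?_)
    G hG V hV
  · have h := curveRhoBar_apply_eq_smul_one_iff W p hΔ ψ (c : ZMod p) σ
    rw [← h, ← map_intCast ((algebraMap k K).comp ψ) c, RingHom.comp_apply]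
    constructor
    · intro hc
      refine LinearMap.ext fun x => Module.FaithfullyFlat.tensorProduct_mk_injective (A := k)
        (B := K) (curveRhoBar W p hΔ ψ).V ?_
      have hx := LinearMap.congr_fun hc ((1 : K) ⊗ₜ[k] x)
      change (1 : K) ⊗ₜ[k] (curveRhoBar W p hΔ ψ).ρ σ x = _ at hx
      rw [LinearMap.smul_apply, Module.End.one_apply, algebraMap_smul,
        ← TensorProduct.tmul_smul] at hx
      exact hx
    · intro hc
      change ((curveRhoBar W p hΔ ψ).ρ σ).baseChange K = _
      rw [hc, LinearMap.baseChange_smul, LinearMap.baseChange_one, algebraMap_smul]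
  · rw [← hcomp, RingHom.comp_apply, ← curveRhoBar_trace W p hΔ ψ]
    exact LinearMap.trace_baseChange _ _
  · rw [← hcomp, RingHom.comp_apply, ← curveRhoBar_det W p hΔ ψ]
    exact LinearMap.det_baseChange (A := K) _

end Fermat.Agent.LL
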