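import Fermat.Agent.CondLevel.Compare
import Fermat.Agent.LR.ChangeVar

/-!
# Independence of the integral model and transfer of unipotent elements

* `torsTrace_eq_of_integralModels`: two integral models of the same curve have the same traces
  on `E[p]`.
* `eq_one_of_trace_mul_eq`: a unipotent element which does not change any trace of an irreducible
  two-dimensional representation acts trivially.
-/

set_option autoImplicit false

noncomputable section

open WeierstrassCurve WeierstrassCurve.Affine.Point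
open scoped WeierstrassCurve.Affine

namespace Fermat.Agent.LL

local notation "Qb" => AlgebraicClosure ℚ
local notation "Γℚ" => (AlgebraicClosure ℚ ≃ₐ[ℚ] AlgebraicClosure ℚ)

open CondLevel (Tors rhoTors)

theorem delta_ne_zero_of_integralModel {E : WeierstrassCurve ℚ} (hE : E.Δ ≠ 0)
    {W : WeierstrassCurve ℤ} (hW : W.IsIntegralModelOf E) : W.Δ ≠ 0 := by
  obtain ⟨C, hC⟩ := hW
  intro h
  have h1 : (W.map (Int.castRingHom ℚ)).Δ = 0 := by rw [WeierstrassCurve.map_Δ, h, _root_.map_zero]
  rw [← hC, variableChange_Δ] at h1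
  exact mul_ne_zero (pow_ne_zero _ C.u⁻¹.ne_zero) hE h1

/-- The torsion of an integral model of `E` is equivariantly the torsion of `E`. -/
theorem exists_torsEquiv (E : WeierstrassCurve ℚ) (hE : E.Δ ≠ 0) {W : WeierstrassCurve ℤ}
    (hW : W.IsIntegralModelOf E) (p : ℕ) [Fact p.Prime] :
    ∃ L : Tors W p ≃ₗ[ZMod p] Submodule.torsionBy ℤ (E⁄Qb).Point p,
      ∀ (σ : Γℚ) (x : Tors W p), L (σ • x) = σ • L x := by
  obtain ⟨C, hC⟩ := hW
  suffices key : ∀ V : WeierstrassCurve ℚ, V = C • E → V.Δ ≠ 0 →
      ∃ L : Submodule.torsionBy ℤ (V⁄Qb).Point p ≃ₗ[ZMod p]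
          Submodule.torsionBy ℤ (E⁄Qb).Point p,
        ∀ (σ : Γℚ) (x : Submodule.torsionBy ℤ (V⁄Qb).Point p), L (σ • x) = σ • L x by
    refine key _ hC.symm ?_
    rw [← hC, variableChange_Δ]
    exact mul_ne_zero (pow_ne_zero _ C.u⁻¹.ne_zero) hE
  rintro V rfl hV
  let T : Submodule.torsionBy ℤ ((C • E)⁄Qb).Point p →+ Submodule.torsionBy ℤ (E⁄Qb).Point p :=
    AddMonoidHom.mk'
      (fun P => ⟨LR.cvBasePoint (K := Qb) E C P.1, by
        have := P.2
        rw [Submodule.mem_torsionBy_iff] at this ⊢
        exact (map_zsmul (LR.cvBasePoint (K := Qb) E C) _ _).symm.trans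
          (by rw [this]; exact _root_.map_zero _)⟩)
      (fun P Q => Subtype.ext (map_add (LR.cvBasePoint (K := Qb) E C) P.1 Q.1))
  have hT : Function.Injective T := fun P Q e =>
    Subtype.ext (LR.cvBasePoint_injective E C (congrArg Subtype.val e))
  have hp : p ≠ 0 := (Fact.out : p.Prime).ne_zero
  have := ECTorsion.finite_torsionBy_qbar E hE (n := p) hp
  have hbij : Function.Bijective (T.toZModLinearMap p) :=
    hT.bijective_of_nat_card_le (by
      rw [ECTorsion.natCard_torsionBy_qbar E hE hp, ECTorsion.natCard_torsionBy_qbar (C • E) hV hp])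
  exact ⟨LinearEquiv.ofBijective _ hbij, fun σ x => Subtype.ext (LR.cvBasePoint_smul E C σ x.1)⟩

/-- The trace on `E[p]` does not depend on the integral model. -/
theorem torsTrace_eq_of_integralModels (E : WeierstrassCurve ℚ) (hE : E.Δ ≠ 0)
    {W W' : WeierstrassCurve ℤ} (hW : W.IsIntegralModelOf E) (hW' : W'.IsIntegralModelOf E)
    (p : ℕ) [Fact p.Prime] (σ : Γℚ) :
    LinearMap.trace (ZMod p) (Tors W p) (rhoTors W p σ) =
      LinearMap.trace (ZMod p) (Tors W' p) (rhoTors W' p σ) := by
  obtain ⟨L, hL⟩ := exists_torsEquiv E hE hW p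
  obtain ⟨L', hL'⟩ := exists_torsEquiv E hE hW' p
  have he : rhoTors W' p σ = (L.trans L'.symm).conj (rhoTors W p σ) := by
    refine LinearMap.ext fun x => ?_
    rw [LinearEquiv.conj_apply_apply, LinearEquiv.trans_apply]
    apply L'.injective
    rw [LinearEquiv.apply_symm_apply]
    change L' (σ • x) = L (σ • _)
    rw [hL', hL, LinearEquiv.symm_trans_apply, LinearEquiv.apply_symm_apply,
      LinearEquiv.symm_symm]
  rw [he, LinearMap.trace_conj']

/-- A unipotent element leaving all traces unchanged is trivial. -/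
theorem eq_one_of_trace_mul_eq {H F V : Type} [Group H] [Field F] [AddCommGroup V] [Module F V]
    (hV : Module.finrank F V = 2) (f : H →* Module.End F V)
    (hirr : ∀ U : Submodule F V, (∀ g, ∀ x ∈ U, f g x ∈ U) → U = ⊥ ∨ U = ⊤) {τ : H}
    (hu : (f τ - 1) * (f τ - 1) = 0)
    (htr : ∀ g, LinearMap.trace F V (f τ * f g) = LinearMap.trace F V (f g)) : f τ = 1 := by
  have hfin : FiniteDimensional F V := Module.finite_of_finrank_eq_succ hV
  by_contra hne
  set N := f τ - 1 with hN
  obtain ⟨v, hv⟩ : ∃ v, N v ≠ 0 := by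
    by_contra hall
    push Not at hall
    exact hne (sub_eq_zero.mp (LinearMap.ext hall))
  set w := N v with hw
  have hNw : N w = 0 := by rw [hw, ← Module.End.mul_apply, hu]; rfl
  have hli : LinearIndependent F ![w, v] := by
    rw [LinearIndependent.pair_iff' hv]
    intro a ha
    exact hv (by rw [hw, ← ha, map_smul, hNw, smul_zero])
  let b := basisOfLinearIndependentOfCardEqFinrank hli (by rw [hV]; rfl)
  have hb0 : b 0 = w := by simp [b]
  have hb1 : b 1 = v := by simp [b]
  have hzero : ∀ g, b.repr (f g w) 1 = 0 := by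
    intro g
    have h0 : LinearMap.trace F V (N * f g) = 0 := by
      rw [hN, sub_mul, one_mul, map_sub, htr, sub_self]
    rw [LinearMap.trace_eq_matrix_trace F b, LinearMap.toMatrix_mul, Matrix.trace_fin_two,
      Matrix.mul_apply, Matrix.mul_apply, Fin.sum_univ_two, Fin.sum_univ_two] at h0
    simp only [LinearMap.toMatrix_apply, hb0, hb1, hNw, ← hw] at h0
    rw [← hb0] at h0 ⊢
    simpa using h0
  have hst : ∀ g, ∀ x ∈ Submodule.span F {w}, f g x ∈ Submodule.span F {w} := by
    intro g x hx
    obtain ⟨c, rfl⟩ := Submodule.mem_span_singleton.mp hx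
    rw [map_smul]
    refine Submodule.smul_mem _ c ?_
    rw [← b.sum_repr (f g w), Fin.sum_univ_two, hzero g, zero_smul, add_zero, hb0]
    exact Submodule.smul_mem _ _ (Submodule.mem_span_singleton_self w)
  rcases hirr _ hst with h | h
  · exact hv (Submodule.span_singleton_eq_bot.mp h)
  · have := finrank_span_singleton (K := F) hv
    rw [h, finrank_top, hV] at this
    omega

end Fermat.Agent.LL
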