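import Fermat.Prelude.Def_GaloisRep_Residual
import Mathlib.LinearAlgebra.Charpoly.ToMatrix
import Mathlib.RingTheory.Flat.FaithfullyFlat.Algebra
import Mathlib.GroupTheory.Index
import Mathlib.LinearAlgebra.Matrix.Charpoly.LinearMap

/-!
# No stable line on a subgroup of index two

A two-dimensional irreducible representation in odd characteristic with a nontrivial unipotent
element has no stable line on any subgroup of index two.
-/

set_option autoImplicit false

noncomputable section

open Module Polynomial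
open scoped TensorProduct

namespace Fermat.Agent.LL

/-- The abstract statement over a field. -/
theorem stable_eq_bot_or_top_of_unipotent {H K V : Type} [Group H] [Field K] [AddCommGroup V]
    [Module K V] (hV : finrank K V = 2) (h2 : (2 : K) ≠ 0) (f : H →* Module.End K V)
    (hirr : ∀ U : Submodule K V, (∀ σ, ∀ x ∈ U, f σ x ∈ U) → U = ⊥ ∨ U = ⊤)
    {τ : H} (hτ : f τ ≠ 1) (hu : (f τ - 1) * (f τ - 1) = 0) (G : Subgroup H) (hG : G.index = 2)
    (L : Submodule K V) (hL : ∀ σ ∈ G, ∀ x ∈ L, f σ x ∈ L) : L = ⊥ ∨ L = ⊤ := by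
  have hfin : FiniteDimensional K V := Module.finite_of_finrank_eq_succ hV
  by_contra hcon
  push Not at hcon
  have hnot : ¬ ∀ σ, ∀ x ∈ L, f σ x ∈ L := fun h =>
    (hirr L h).elim hcon.1 hcon.2
  push Not at hnot
  obtain ⟨s, v, hv, hsv⟩ := hnot
  have hinvf : ∀ (σ : H) (x : V), f σ (f σ⁻¹ x) = x := fun σ x => by
    rw [← Module.End.mul_apply, ← map_mul, mul_inv_cancel, map_one, Module.End.one_apply]
  have hline : ∀ x ∈ L, ∃ c : K, x = c • v := by
    have hv0 : v ≠ 0 := fun h0 => hsv (by rw [h0, map_zero]; exact zero_mem _)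
    have hL1 : finrank K L = 1 := by
      have hlt := Submodule.finrank_lt (Ne.lt_top hcon.2).ne
      have hpos : finrank K L ≠ 0 := fun h0 => hcon.1 (Submodule.finrank_eq_zero.mp h0)
      rw [hV] at hlt
      omega
    intro x hx
    obtain ⟨c, hc⟩ := exists_smul_eq_of_finrank_eq_one hL1 (x := (⟨v, hv⟩ : L))
      (fun h => hv0 (congrArg Subtype.val h)) ⟨x, hx⟩
    exact ⟨c, (congrArg Subtype.val hc).symm⟩
  -- the unipotent part kills both lines
  set g := τ * τ with hgdef
  have hg : g ∈ G := Subgroup.mul_self_mem_of_index_two hG τ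
  have hg' : s⁻¹ * g * s ∈ G := by
    have := Subgroup.normal_of_index_eq_two hG
    simpa using this.conj_mem g hg s⁻¹
  have hfg : f g = 2 • (f τ - 1) + 1 := by
    rw [hgdef, map_mul, ← add_zero (2 • (f τ - 1) + 1), ← hu, sub_mul, mul_sub, one_mul, mul_one]
    module
  have hnil : (f g - 1) * (f g - 1) = 0 := by
    rw [hfg, add_sub_cancel_right, smul_mul_smul_comm, hu, smul_zero]
  have heig : ∀ (w : V) (c : K), f g w = c • w → f g w = w := by
    intro w c hc
    have h0 := LinearMap.congr_fun hnil w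
    simp only [Module.End.mul_apply, LinearMap.sub_apply, Module.End.one_apply, map_sub,
      hc, map_smul, LinearMap.zero_apply] at h0
    rw [hc]
    rcases eq_or_ne w 0 with rfl | hw
    · rw [smul_zero]
    have : ((c - 1) * (c - 1)) • w = 0 := by
      linear_combination (norm := module) h0
    rw [sub_eq_zero.mp (mul_self_eq_zero.mp ((smul_eq_zero.mp this).resolve_right hw)), one_smul]
  obtain ⟨c, hc⟩ := hline _ (hL g hg v hv)
  have hgv : f g v = v := heig v c hc
  obtain ⟨c', hc'⟩ := hline _ (hL _ hg' v hv)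
  have hgsv : f g (f s v) = f s v := by
    refine heig _ c' ?_
    rw [map_mul, map_mul, Module.End.mul_apply, Module.End.mul_apply] at hc'
    rw [← map_smul, ← hc', hinvf]
  have hv0 : v ≠ 0 := fun h0 => hsv (by rw [h0, map_zero]; exact zero_mem _)
  have hli : LinearIndependent K ![v, f s v] := by
    rw [LinearIndependent.pair_iff' hv0]
    intro a ha
    exact hsv (ha ▸ L.smul_mem a hv)
  let b := basisOfLinearIndependentOfCardEqFinrank hli (by rw [hV]; rfl)
  have hone : f g = 1 := b.ext fun i => by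
    fin_cases i <;> simp [b, hgv, hgsv]
  apply hτ
  rw [hfg, add_eq_right] at hone
  rw [two_smul, ← two_smul K, smul_eq_zero] at hone
  exact sub_eq_zero.mp (hone.resolve_left h2)

/-- No stable line on index-two subgroups after any extension of scalars. -/
theorem residual_tw_of_unipotent {k : Type} [Field k] (h2 : (2 : k) ≠ 0) (ρ : ResidualGaloisRep k)
    (K : Type) [Field K] [Algebra k K]
    (hirr : ∀ U : Submodule K (ρ.baseChange K).V,
      (∀ σ, ∀ x ∈ U, (ρ.baseChange K).ρ σ x ∈ U) → U = ⊥ ∨ U = ⊤)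
    {τ : AlgebraicClosure ℚ ≃ₐ[ℚ] AlgebraicClosure ℚ} (hτ : ρ.ρ τ ≠ 1)
    (hu : LinearMap.charpoly (ρ.ρ τ) = (X - 1) ^ 2)
    (G : Subgroup (AlgebraicClosure ℚ ≃ₐ[ℚ] AlgebraicClosure ℚ)) (hG : G.index = 2)
    (V : Submodule K (ρ.baseChange K).V)
    (hV : ∀ σ ∈ G, ∀ x ∈ V, (ρ.baseChange K).ρ σ x ∈ V) : V = ⊥ ∨ V = ⊤ := by
  refine stable_eq_bot_or_top_of_unipotent (ρ.baseChange K).finrank_eq ?_ (ρ.baseChange K).ρ hirr
    (τ := τ) ?_ ?_ G hG V hV
  · intro h
    exact h2 ((algebraMap k K).injective (by rw [map_ofNat, map_zero, h]))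
  · intro h
    refine hτ (LinearMap.ext fun x => ?_)
    have hx := LinearMap.congr_fun h ((1 : K) ⊗ₜ[k] x)
    change (ρ.ρ τ).baseChange K ((1 : K) ⊗ₜ[k] x) = _ at hx
    rw [LinearMap.baseChange_tmul, Module.End.one_apply] at hx
    exact Module.FaithfullyFlat.tensorProduct_mk_injective (A := k) (B := K) ρ.V hx
  · have h0 : (ρ.ρ τ - 1) * (ρ.ρ τ - 1) = 0 := by
      have := LinearMap.aeval_self_charpoly (ρ.ρ τ)
      rw [hu] at this
      simpa [sq] using this
    have e : (ρ.baseChange K).ρ τ - 1 = LinearMap.baseChange K (ρ.ρ τ - 1) := by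
      rw [LinearMap.baseChange_sub, LinearMap.baseChange_one]
      rfl
    rw [e, ← LinearMap.baseChange_mul, h0, LinearMap.baseChange_zero]

end Fermat.Agent.LL
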